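import Mathlib
import Fermat.Prelude.Def_ModularCurve_HeckeModule
import Fermat.Prelude.Def_GaloisRep_Residual
import Fermat.Agent.MU.S24.JFun
import Fermat.Agent.MU.S24.Invariants
import Fermat.Agent.MU.S24.EmbFHom
import Fermat.Agent.MU.S24.Periods
import Fermat.Agent.MU.Lib.Kronecker.ConjGens2
import Fermat.Agent.MU.S24.EmbFStab

section MergeWrap_S48_W_Defs -- from S48/W/Defs.lean

set_option autoImplicit false

noncomputable section

namespace Fermat.Agent.S48W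

open ModularCurve AlgebraicCurve PowerSeries HahnSeries IntermediateField

local notation "Kb" => AlgebraicClosure ℚ
local notation "GK" => (AlgebraicClosure ℚ ≃ₐ[ℚ] AlgebraicClosure ℚ)

/-! ### formal `q`-series -/

/-- `E₆ = 1 - 504 Σ σ₅(n) q^n`. -/
def eis6 : PowerSeries ℤ :=
  PowerSeries.mk fun n => if n = 0 then 1 else -504 * ∑ d ∈ n.divisors, (d : ℤ) ^ 5

/-- `E₄ E₆ / Δ = q⁻¹ (E₄ E₆ / Π (1 - q^n)^24)`, in `ℚ((q))`. -/
def eisQuot : LaurentSeries ℚ :=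
  HahnSeries.single (-1 : ℤ) 1 *
    HahnSeries.ofPowerSeries ℤ ℚ
      ((eisenstein4 * eis6 * dedekindEtaUnitInv).map (Int.castRingHom ℚ))

/-- the coefficients of `12 ℘(a τ; M τ, 1) / (2 π i)²`. -/
def wpCoeff (M : ℕ) (a : ZMod M) (n : ℕ) : ℤ :=
  (if n = 0 then 1 else 0)
    - 24 * (if n ≠ 0 ∧ M ∣ n then ∑ d ∈ (n / M).divisors, (d : ℤ) else 0)
    + 12 * ∑ d ∈ n.divisors,
        ((if ((d : ℕ) : ZMod M) = a then ((n / d : ℕ) : ℤ) else 0)
          + (if ((d : ℕ) : ZMod M) = -a then ((n / d : ℕ) : ℤ) else 0))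

/-- `12 ℘(a τ; M τ, 1) / (2 π i)²` as a power series in `q`. -/
def wpSeries (M : ℕ) (a : ZMod M) : PowerSeries ℤ := PowerSeries.mk (wpCoeff M a)

/-- the **Fricke function** `E₄(q^M) E₆(q^M) ℘_a(q) / Δ(q^M)`. -/
def fricke (M : ℕ) [NeZero M] (a : ZMod M) : LaurentSeries ℚ :=
  qExpand ℚ M eisQuot *
    HahnSeries.ofPowerSeries ℤ ℚ ((wpSeries M a).map (Int.castRingHom ℚ))

/-! ### the function field of `X₁(M)` -/

/-- the generators: `j(q^d)` (`d ∣ M`) and the Fricke functions. -/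
def genOne (M : ℕ) [NeZero M] : Set (LaurentSeries ℚ) :=
  divisorExpansions M ∪ {x | ∃ a : ZMod M, a ≠ 0 ∧ x = fricke M a}

/-- **the function field of `X₁(M)` over `ℚ`** (rational `q`-expansions at `∞`). -/
def FOne (M : ℕ) [NeZero M] : IntermediateField ℚ (LaurentSeries ℚ) :=
  IntermediateField.adjoin ℚ (genOne M)

theorem fricke_mem (M : ℕ) [NeZero M] {a : ZMod M} (ha : a ≠ 0) : fricke M a ∈ FOne M :=
  IntermediateField.subset_adjoin ℚ _ (Or.inr ⟨a, ha, rfl⟩)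

theorem full_le_FOne (M : ℕ) [NeZero M] : modularFunctionFieldFull M ≤ FOne M :=
  IntermediateField.adjoin.mono ℚ _ _ Set.subset_union_left

/-- the function field of `X₁(M)` over `ℚ̄`. -/
abbrev FOneBar (M : ℕ) [NeZero M] : IntermediateField Kb (LaurentSeries Kb) :=
  laurentBaseChange Kb (FOne M)

/-- **`J₁(M)(ℚ̄)`** `= Pic⁰` of the function field; `G_ℚ` acts coefficientwise on `q`-expansions
(Prelude instance for `Pic0 L (laurentBaseChange L F₀)`). -/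
abbrev JOne (M : ℕ) [NeZero M] : Type := Pic0 Kb (FOneBar M)

/-- the `n`-torsion of `J₁(M)(ℚ̄)`. -/
abbrev JtorsOne (M n : ℕ) [NeZero M] : Submodule ℤ (JOne M) :=
  Submodule.torsionBy ℤ (JOne M) (n : ℤ)

/-! ### the level `Γ₁(M) ∩ Γ₀(p)` and the Hecke correspondence -/

/-- the function field of `X(Γ₁(M) ∩ Γ₀(p))`: generated by `F₁(M)` and `F₁(M)(q^p)`. -/
def FOneP (M p : ℕ) [NeZero M] [NeZero p] : IntermediateField ℚ (LaurentSeries ℚ) :=
  IntermediateField.adjoin ℚ ((FOne M : Set (LaurentSeries ℚ)) ∪ (qExpand ℚ p '' (FOne M)))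

theorem FOne_le_FOneP (M p : ℕ) [NeZero M] [NeZero p] : FOne M ≤ FOneP M p := fun _ hx =>
  IntermediateField.subset_adjoin ℚ _ (Or.inl hx)

theorem qExpand_mem_FOneP (M p : ℕ) [NeZero M] [NeZero p] {x : LaurentSeries ℚ}
    (hx : x ∈ FOne M) : qExpand ℚ p x ∈ FOneP M p :=
  IntermediateField.subset_adjoin ℚ _ (Or.inr ⟨x, hx, rfl⟩)

end Fermat.Agent.S48W
end
end MergeWrap_S48_W_Defs

section MergeWrap_S48_Eis1_Cot -- from S48/Eis1/Cot.lean

set_option autoImplicit false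

/-!
# S48 (P2), weight-one Eisenstein series, file A: the functions `g(x) = x/(1-x)`, `h(x) = x/(1-x)²`
and the cotangent  (helper33)

* `eis1_pi_cot_eq`  : `π cot(πw) = -πi - 2πi g(e(w))`, `e(w) = exp(2πi w)`, for `w ∉ ℤ`;
* `eis1_hasDerivAt_pi_cot` : `d/dw π cot(πw) = 4π² h(e(w))`  (`= -π²/sin²(πw)`);
* `eis1_tsum_inv_sq` : `∑_{n ∈ ℤ} 1/(w+n)² = -4π² h(e(w))` for ALL `w ∉ ℤ`.
-/

noncomputable section

open Complex Real Filter Topology

namespace Fermat.Agent.S48.Eis1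

/-- `e(w) = exp(2πi w)`. -/
def eExp (w : ℂ) : ℂ := cexp (2 * π * I * w)

/-- `g(x) = x / (1 - x)`. -/
def gFun (x : ℂ) : ℂ := x / (1 - x)

/-- `h(x) = x / (1 - x)²`. -/
def hFun (x : ℂ) : ℂ := x / (1 - x) ^ 2

theorem eExp_ne_zero (w : ℂ) : eExp w ≠ 0 := Complex.exp_ne_zero _

theorem eExp_add (w w' : ℂ) : eExp (w + w') = eExp w * eExp w' := by
  rw [eExp, eExp, eExp, ← Complex.exp_add]
  ring_nf

theorem eExp_neg (w : ℂ) : eExp (-w) = (eExp w)⁻¹ := by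
  rw [eExp, eExp, ← Complex.exp_neg]
  ring_nf

theorem eExp_add_int (w : ℂ) (n : ℤ) : eExp (w + n) = eExp w := by
  rw [eExp, eExp, mul_add, Complex.exp_add]
  have : cexp (2 * π * I * n) = 1 := by
    have := Complex.exp_int_mul_two_pi_mul_I n
    rw [← this]
    ring_nf
  rw [this, mul_one]

theorem eExp_add_one (w : ℂ) : eExp (w + 1) = eExp w := by
  have := eExp_add_int w 1
  simpa using this

theorem norm_eExp (w : ℂ) : ‖eExp w‖ = Real.exp (-2 * π * w.im) := by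
  rw [eExp, Complex.norm_exp]
  congr 1
  simp

theorem eExp_eq_one_iff (w : ℂ) : eExp w = 1 ↔ ∃ n : ℤ, w = n := by
  rw [eExp, Complex.exp_eq_one_iff]
  constructor
  · rintro ⟨n, hn⟩
    refine ⟨n, ?_⟩
    have h2 : (2 * π * I : ℂ) ≠ 0 := by
      simp [Real.pi_ne_zero, Complex.I_ne_zero]
    apply mul_left_cancel₀ h2
    rw [hn]
    ring
  · rintro ⟨n, rfl⟩
    exact ⟨n, by ring⟩

theorem gFun_add_gFun_inv {x : ℂ} (hx : x ≠ 0) (hx1 : x ≠ 1) : gFun x + gFun x⁻¹ = -1 := by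
  have h1 : (1 : ℂ) - x ≠ 0 := sub_ne_zero.mpr (Ne.symm hx1)
  have h2 : (1 : ℂ) - x⁻¹ ≠ 0 := by
    intro h
    apply hx1
    have : x⁻¹ = 1 := by linear_combination -h
    rw [inv_eq_one] at this
    exact this
  rw [gFun, gFun]
  field_simp
  ring

theorem hFun_inv {x : ℂ} (hx : x ≠ 0) : hFun x⁻¹ = hFun x := by
  by_cases hx1 : x = 1
  · subst hx1
    simp
  have h1 : (1 : ℂ) - x ≠ 0 := sub_ne_zero.mpr (Ne.symm hx1)
  have h2 : (1 : ℂ) - x⁻¹ ≠ 0 := by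
    intro h
    apply hx1
    have : x⁻¹ = 1 := by linear_combination -h
    rw [inv_eq_one] at this
    exact this
  rw [hFun, hFun]
  field_simp
  ring

/-- `π cot(πw) = -πi - 2πi g(e(w))`. -/
theorem eis1_pi_cot_eq {w : ℂ} (hw : eExp w ≠ 1) :
    π * Complex.cot (π * w) = -(π * I) - 2 * π * I * gFun (eExp w) := by
  rw [Complex.cot_pi_eq_exp_ratio, gFun]
  have h1 : (1 : ℂ) - cexp (2 * π * I * w) ≠ 0 := sub_ne_zero.mpr (Ne.symm hw)
  rw [eExp]
  generalize cexp (2 * π * I * w) = X at h1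
  have hI : (I : ℂ) ≠ 0 := Complex.I_ne_zero
  have e1 : (X + 1) / (I * (1 - X)) = -I * (X + 1) / (1 - X) := by
    rw [div_eq_div_iff (mul_ne_zero hI h1) h1]
    linear_combination ((X + 1) * (1 - X)) * Complex.I_mul_I
  have e2 : X / (1 - X) = (X + 1) / (1 - X) / 2 - 1 / 2 := by
    field_simp
    ring
  rw [e1, e2]
  ring

theorem norm_gFun_le {x : ℂ} (hx : ‖x‖ ≤ 1 / 2) : ‖gFun x‖ ≤ 2 * ‖x‖ := by
  rw [gFun, norm_div]
  have h1 : (1 : ℝ) / 2 ≤ ‖(1 : ℂ) - x‖ := by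
    have := norm_sub_norm_le (1 : ℂ) x
    rw [norm_one] at this
    linarith
  rw [div_le_iff₀ (by linarith)]
  nlinarith [norm_nonneg x]

theorem norm_hFun_le {x : ℂ} (hx : ‖x‖ ≤ 1 / 2) : ‖hFun x‖ ≤ 4 * ‖x‖ := by
  rw [hFun, norm_div, norm_pow]
  have h1 : (1 : ℝ) / 2 ≤ ‖(1 : ℂ) - x‖ := by
    have := norm_sub_norm_le (1 : ℂ) x
    rw [norm_one] at this
    linarith
  have h2 : (1 : ℝ) / 4 ≤ ‖(1 : ℂ) - x‖ ^ 2 := by nlinarith
  rw [div_le_iff₀ (by linarith)]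
  nlinarith [norm_nonneg x]

/-! ### derivatives -/

theorem hasDerivAt_eExp (w : ℂ) : HasDerivAt eExp (2 * π * I * eExp w) w := by
  have h1 : HasDerivAt (fun w : ℂ => 2 * π * I * w) (2 * π * I) w := by
    simpa using (hasDerivAt_id w).const_mul (2 * π * I : ℂ)
  have h2 := (Complex.hasDerivAt_exp (2 * π * I * w)).comp w h1
  have e : (2 * π * I * eExp w : ℂ) = cexp (2 * π * I * w) * (2 * π * I) := by
    rw [eExp]
    ring
  rw [e]
  exact h2

theorem hasDerivAt_gFun {x : ℂ} (hx : x ≠ 1) : HasDerivAt gFun (1 / (1 - x) ^ 2) x := by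
  have h1 : (1 : ℂ) - x ≠ 0 := sub_ne_zero.mpr (Ne.symm hx)
  have h2 : HasDerivAt (fun x : ℂ => 1 - x) (-1) x := by
    simpa using (hasDerivAt_id x).const_sub (1 : ℂ)
  have h3 := (hasDerivAt_id x).div h2 h1
  have e : (1 : ℂ) / (1 - x) ^ 2 = (1 * (1 - x) - id x * -1) / (1 - x) ^ 2 := by
    congr 1
    simp only [id_eq]
    ring
  rw [e]
  exact h3

theorem hasDerivAt_gFun_eExp {w : ℂ} (hw : eExp w ≠ 1) :
    HasDerivAt (fun w => gFun (eExp w)) (2 * π * I * hFun (eExp w)) w := by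
  have h := (hasDerivAt_gFun hw).comp w (hasDerivAt_eExp w)
  have e : (2 * π * I * hFun (eExp w) : ℂ) = 1 / (1 - eExp w) ^ 2 * (2 * π * I * eExp w) := by
    unfold hFun
    ring
  rw [e]
  exact h

theorem isOpen_eExp_ne_one : IsOpen {w : ℂ | eExp w ≠ 1} := by
  have hc : Continuous eExp := by
    unfold eExp
    fun_prop
  exact isOpen_ne_fun hc continuous_const

/-- `d/dw π cot(πw) = 4π² h(e(w))`. -/
theorem eis1_hasDerivAt_pi_cot {w : ℂ} (hw : eExp w ≠ 1) :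
    HasDerivAt (fun w : ℂ => π * Complex.cot (π * w)) (4 * π ^ 2 * hFun (eExp w)) w := by
  have h1 : HasDerivAt (fun w : ℂ => -(π * I) - 2 * π * I * gFun (eExp w))
      (-(2 * π * I * (2 * π * I * hFun (eExp w)))) w := by
    have := ((hasDerivAt_gFun_eExp hw).const_mul (2 * π * I : ℂ)).const_sub (-(π * I) : ℂ)
    simpa using this
  have h2 : -(2 * π * I * (2 * π * I * hFun (eExp w))) = 4 * π ^ 2 * hFun (eExp w) := by
    linear_combination (-4 * π ^ 2 * hFun (eExp w)) * Complex.I_mul_I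
  rw [h2] at h1
  refine h1.congr_of_eventuallyEq ?_
  filter_upwards [isOpen_eExp_ne_one.mem_nhds hw] with y hy
  exact eis1_pi_cot_eq hy

/-! ### `∑ 1/(w+n)²` on the complement of `ℤ` -/

theorem eExp_ne_one_of_mem {w : ℂ} (hw : w ∈ Complex.integerComplement) : eExp w ≠ 1 := by
  intro h
  obtain ⟨n, hn⟩ := (eExp_eq_one_iff w).mp h
  exact hw ⟨n, hn.symm⟩

theorem mem_integerComplement_of_eExp_ne_one {w : ℂ} (hw : eExp w ≠ 1) :
    w ∈ Complex.integerComplement := by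
  rintro ⟨n, rfl⟩
  exact hw ((eExp_eq_one_iff _).mpr ⟨n, rfl⟩)

theorem exists_half_dist {w : ℂ} (hw : w ∈ Complex.integerComplement) :
    ∃ r : ℝ, 0 < r ∧ ∀ k : ℤ, 2 * r ≤ ‖w - k‖ := by
  have hcl : IsClosed (Set.range ((↑) : ℤ → ℂ)) := by
    have := Complex.isOpen_compl_range_intCast
    exact isOpen_compl_iff.mp this
  have hne : (Set.range ((↑) : ℤ → ℂ)).Nonempty := ⟨0, ⟨0, by simp⟩⟩
  have hpos := (hcl.notMem_iff_infDist_pos hne).mp hw
  refine ⟨Metric.infDist w (Set.range ((↑) : ℤ → ℂ)) / 2, by positivity, fun k => ?_⟩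
  have := Metric.infDist_le_dist_of_mem (x := w) (Set.mem_range_self (f := ((↑) : ℤ → ℂ)) k)
  rw [dist_eq_norm] at this
  linarith

theorem summable_norm_inv_sq (w : ℂ) : Summable fun d : ℤ => ‖((w + d) ^ 2)⁻¹‖ := by
  have h := (EisensteinSeries.linear_right_summable w 1 (k := 2) le_rfl).norm
  refine h.congr fun d => ?_
  simp

theorem summable_inv_norm_sq_sub (w : ℂ) :
    Summable fun n : ℕ => (‖w - ((n : ℂ) + 1)‖ ^ 2)⁻¹ := by
  have h0 := summable_norm_inv_sq w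
  have h1 := h0.comp_injective (i := fun n : ℕ => (-((n : ℤ) + 1) : ℤ)) (by
    intro a b hab
    simp only [neg_inj, add_left_inj, Nat.cast_inj] at hab
    exact hab)
  refine h1.congr fun n => ?_
  simp only [Function.comp_apply, norm_inv, norm_pow]
  congr 3
  push_cast
  ring

theorem summable_inv_norm_sq_add (w : ℂ) :
    Summable fun n : ℕ => (‖w + ((n : ℂ) + 1)‖ ^ 2)⁻¹ := by
  have h0 := summable_norm_inv_sq w
  have h1 := h0.comp_injective (i := fun n : ℕ => (((n : ℤ) + 1) : ℤ)) (by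
    intro a b hab
    simp only [add_left_inj, Nat.cast_inj] at hab
    exact hab)
  refine h1.congr fun n => ?_
  simp only [Function.comp_apply, norm_inv, norm_pow]
  congr 3
  push_cast
  ring

theorem norm_inv_sq_le_of_half {a b : ℂ} (hb : 0 < ‖b‖) (h : ‖b‖ / 2 ≤ ‖a‖) :
    ‖1 / a ^ 2‖ ≤ 4 * (‖b‖ ^ 2)⁻¹ := by
  have ha : 0 < ‖a‖ := by linarith
  rw [norm_div, norm_one, norm_pow, one_div, ← div_eq_mul_inv,
    inv_le_iff_one_le_mul₀ (by positivity), div_mul_eq_mul_div, le_div_iff₀ (by positivity)]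
  nlinarith

theorem hasDerivAt_one_div_add (c : ℂ) {y : ℂ} (h : y + c ≠ 0) :
    HasDerivAt (fun y : ℂ => 1 / (y + c)) (-(1 / (y + c) ^ 2)) y := by
  have := ((hasDerivAt_id y).add_const c).inv h
  simp only [id_eq] at this
  have e : (-(1 / (y + c) ^ 2) : ℂ) = -1 / (y + c) ^ 2 := by ring
  rw [e]
  refine this.congr_of_eventuallyEq (Filter.Eventually.of_forall fun z => ?_)
  simp

/-- termwise differentiation of the cotangent series. -/
theorem hasDerivAt_tsum_cotTerm {w : ℂ} (hw : w ∈ Complex.integerComplement) :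
    HasDerivAt (fun z : ℂ => ∑' n : ℕ, cotTerm z n)
      (∑' n : ℕ, (-(1 / (w - ((n : ℂ) + 1)) ^ 2) - 1 / (w + ((n : ℂ) + 1)) ^ 2)) w := by
  obtain ⟨r, hr, hrk⟩ := exists_half_dist hw
  have hdist : ∀ y ∈ Metric.ball w r, ∀ k : ℤ, ‖w - k‖ / 2 ≤ ‖y - k‖ := by
    intro y hy k
    rw [Metric.mem_ball, dist_eq_norm] at hy
    have h1 : ‖w - k‖ ≤ ‖y - k‖ + ‖y - w‖ := by
      have := norm_sub_le_norm_sub_add_norm_sub w y (k : ℂ)
      rw [norm_sub_rev w y] at this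
      linarith
    have := hrk k
    linarith
  have hwk : ∀ k : ℤ, 0 < ‖w - k‖ := fun k => by
    have := hrk k
    linarith
  have hd1 : ∀ y ∈ Metric.ball w r, ∀ n : ℕ, ‖w - ((n : ℂ) + 1)‖ / 2 ≤ ‖y - ((n : ℂ) + 1)‖ := by
    intro y hy n
    have := hdist y hy (n + 1)
    simpa using this
  have hd2 : ∀ y ∈ Metric.ball w r, ∀ n : ℕ, ‖w + ((n : ℂ) + 1)‖ / 2 ≤ ‖y + ((n : ℂ) + 1)‖ := by
    intro y hy n
    have := hdist y hy (-(n + 1))
    have e : ∀ x : ℂ, x - ((-((n : ℤ) + 1) : ℤ) : ℂ) = x + ((n : ℂ) + 1) := fun x => by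
      push_cast
      ring
    rwa [e, e] at this
  have hw1 : ∀ n : ℕ, 0 < ‖w - ((n : ℂ) + 1)‖ := fun n => by
    have := hwk (n + 1)
    simpa using this
  have hw2 : ∀ n : ℕ, 0 < ‖w + ((n : ℂ) + 1)‖ := fun n => by
    have := hwk (-(n + 1))
    have e : ∀ x : ℂ, x - ((-((n : ℤ) + 1) : ℤ) : ℂ) = x + ((n : ℂ) + 1) := fun x => by
      push_cast
      ring
    rwa [e] at this
  have hsum : Summable fun n : ℕ =>
      4 * (‖w - ((n : ℂ) + 1)‖ ^ 2)⁻¹ + 4 * (‖w + ((n : ℂ) + 1)‖ ^ 2)⁻¹ :=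
    ((summable_inv_norm_sq_sub w).mul_left 4).add ((summable_inv_norm_sq_add w).mul_left 4)
  refine hasDerivAt_tsum_of_isPreconnected (g := fun (n : ℕ) (z : ℂ) => cotTerm z n)
    (g' := fun (n : ℕ) (y : ℂ) => -(1 / (y - ((n : ℂ) + 1)) ^ 2) - 1 / (y + ((n : ℂ) + 1)) ^ 2)
    (t := Metric.ball w r) (y₀ := w) hsum Metric.isOpen_ball
    (convex_ball w r).isPreconnected (fun n y hy => ?_) (fun n y hy => ?_)
    (Metric.mem_ball_self hr) (summable_cotTerm hw) (Metric.mem_ball_self hr)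
  · -- derivative of the terms
    show HasDerivAt (fun z : ℂ => 1 / (z - ((n : ℂ) + 1)) + 1 / (z + ((n : ℂ) + 1)))
      (-(1 / (y - ((n : ℂ) + 1)) ^ 2) - 1 / (y + ((n : ℂ) + 1)) ^ 2) y
    have h1 : y - ((n : ℂ) + 1) ≠ 0 := by
      intro h0
      have := hd1 y hy n
      rw [h0, norm_zero] at this
      have := hw1 n
      linarith
    have h2 : y + ((n : ℂ) + 1) ≠ 0 := by
      intro h0
      have := hd2 y hy n
      rw [h0, norm_zero] at this
      have := hw2 n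
      linarith
    have d1 := hasDerivAt_one_div_add (-((n : ℂ) + 1)) (by rwa [← sub_eq_add_neg])
    have d2 := hasDerivAt_one_div_add ((n : ℂ) + 1) h2
    have := d1.add d2
    rw [← sub_eq_add_neg] at this
    simp only [← sub_eq_add_neg] at this
    exact this
  · -- the bound
    have b1 := norm_inv_sq_le_of_half (hw1 n) (hd1 y hy n)
    have b2 := norm_inv_sq_le_of_half (hw2 n) (hd2 y hy n)
    calc ‖-(1 / (y - ((n : ℂ) + 1)) ^ 2) - 1 / (y + ((n : ℂ) + 1)) ^ 2‖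
        ≤ ‖1 / (y - ((n : ℂ) + 1)) ^ 2‖ + ‖1 / (y + ((n : ℂ) + 1)) ^ 2‖ := by
          rw [sub_eq_add_neg]
          refine (norm_add_le _ _).trans ?_
          rw [norm_neg, norm_neg]
      _ ≤ _ := add_le_add b1 b2


theorem summable_one_div_add_sq (w : ℂ) : Summable fun d : ℤ => 1 / (w + d) ^ 2 := by
  have h := EisensteinSeries.linear_right_summable w 1 (k := 2) le_rfl
  refine h.congr fun d => ?_
  simp

theorem summable_one_div_add_sq_nat (w : ℂ) :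
    Summable fun n : ℕ => 1 / (w + ((n : ℂ) + 1)) ^ 2 := by
  have h1 := (summable_one_div_add_sq w).comp_injective (i := fun n : ℕ => (((n : ℤ) + 1) : ℤ)) (by
    intro a b hab
    simp only [add_left_inj, Nat.cast_inj] at hab
    exact hab)
  refine h1.congr fun n => ?_
  simp only [Function.comp_apply]
  push_cast
  ring

theorem summable_one_div_sub_sq_nat (w : ℂ) :
    Summable fun n : ℕ => 1 / (w - ((n : ℂ) + 1)) ^ 2 := by
  have h1 := (summable_one_div_add_sq w).comp_injective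
    (i := fun n : ℕ => (-((n : ℤ) + 1) : ℤ)) (by
    intro a b hab
    simp only [neg_inj, add_left_inj, Nat.cast_inj] at hab
    exact hab)
  refine h1.congr fun n => ?_
  simp only [Function.comp_apply]
  push_cast
  ring_nf

/-- **L1**: `∑_{n ∈ ℤ} 1/(w+n)² = -4π² h(e(w))` for every `w ∉ ℤ`. -/
theorem eis1_tsum_inv_sq {w : ℂ} (hw : eExp w ≠ 1) :
    ∑' n : ℤ, 1 / (w + n) ^ 2 = -(4 * π ^ 2 * hFun (eExp w)) := by
  have hwc := mem_integerComplement_of_eExp_ne_one hw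
  have hw0 : w ≠ 0 := by
    rintro rfl
    exact hwc ⟨0, by simp⟩
  -- the derivative of `π cot(π z) - 1/z`, computed in two ways
  have hA : HasDerivAt (fun z : ℂ => π * Complex.cot (π * z) - 1 / z)
      (4 * π ^ 2 * hFun (eExp w) - (-(1 / w ^ 2))) w := by
    have h1 := eis1_hasDerivAt_pi_cot hw
    have h2 : HasDerivAt (fun z : ℂ => 1 / z) (-(1 / w ^ 2)) w := by
      have := hasDerivAt_one_div_add 0 (y := w) (by simpa using hw0)
      simpa using this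
    exact h1.sub h2
  have hB : HasDerivAt (fun z : ℂ => π * Complex.cot (π * z) - 1 / z)
      (∑' n : ℕ, (-(1 / (w - ((n : ℂ) + 1)) ^ 2) - 1 / (w + ((n : ℂ) + 1)) ^ 2)) w := by
    refine (hasDerivAt_tsum_cotTerm hwc).congr_of_eventuallyEq ?_
    filter_upwards [Complex.isOpen_compl_range_intCast.mem_nhds hwc] with y hy
    exact cot_series_rep' hy
  have hu := hA.unique hB
  have hs1 := summable_one_div_add_sq_nat w
  have hs2 := summable_one_div_sub_sq_nat w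
  have e1 : ∑' n : ℕ, (-(1 / (w - ((n : ℂ) + 1)) ^ 2) - 1 / (w + ((n : ℂ) + 1)) ^ 2)
      = -(∑' n : ℕ, 1 / (w - ((n : ℂ) + 1)) ^ 2) - ∑' n : ℕ, 1 / (w + ((n : ℂ) + 1)) ^ 2 := by
    rw [Summable.tsum_sub hs2.neg hs1, tsum_neg]
  rw [e1] at hu
  have e2 := tsum_of_add_one_of_neg_add_one (f := fun n : ℤ => 1 / (w + n) ^ 2)
    (by
      refine hs1.congr fun n => ?_
      push_cast
      rfl)
    (by
      refine hs2.congr fun n => ?_
      push_cast
      ring_nf)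
  rw [e2]
  have e3 : ∑' n : ℕ, 1 / (w + (((n : ℤ) + 1 : ℤ) : ℂ)) ^ 2
      = ∑' n : ℕ, 1 / (w + ((n : ℂ) + 1)) ^ 2 := by
    refine tsum_congr fun n => ?_
    push_cast
    rfl
  have e4 : ∑' n : ℕ, 1 / (w + ((-((n : ℤ) + 1) : ℤ) : ℂ)) ^ 2
      = ∑' n : ℕ, 1 / (w - ((n : ℂ) + 1)) ^ 2 := by
    refine tsum_congr fun n => ?_
    push_cast
    ring_nf
  rw [e3, e4]
  simp only [Int.cast_zero, add_zero]
  linear_combination hu

end Fermat.Agent.S48.Eis1
end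
end MergeWrap_S48_Eis1_Cot

section MergeWrap_S48_Eis1_ZetaStd -- from S48/Eis1/ZetaStd.lean

set_option autoImplicit false

/-!
# S48 (P2), weight-one Eisenstein series, file B: the function `Z(z, τ)`  (helper33)

`Z(z, τ) = π cot(πz) + 2πi ∑_{n ≥ 1} (g(e(-z) qⁿ) - g(e(z) qⁿ))`, `q = e(τ)`:
the Weierstrass `ζ`-function of `ℤτ + ℤ` minus `G₂(τ) z`
(`= lim_M ∑_{|m| ≤ M} π cot(π(z + mτ))`).

* `zFun_neg`            : `Z(-z) = -Z(z)`;
* `zFun_add_one`        : `Z(z+1) = Z(z)`;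
* `zFun_add_tau`        : `Z(z+τ) = Z(z) - 2πi`;
* `zFun_add_lat`        : `Z(z + mτ + n) = Z(z) - 2πi m`;
* `hasDerivAt_zFun`     : `∂Z/∂z = 4π² ∑_{m ∈ ℤ} h(e(z + mτ))` off the lattice.
-/

noncomputable section

open Complex Real Filter Topology

namespace Fermat.Agent.S48.Eis1

/-! ### general bounds -/

theorem norm_one_sub_ge {x : ℂ} {ρ : ℝ} (hx : ‖x‖ ≤ ρ) : 1 - ρ ≤ ‖1 - x‖ := by
  have := norm_sub_norm_le (1 : ℂ) x
  rw [norm_one] at this
  linarith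

theorem norm_gFun_le_of_le {x : ℂ} {ρ : ℝ} (hρ : ρ < 1) (hx : ‖x‖ ≤ ρ) :
    ‖gFun x‖ ≤ ‖x‖ / (1 - ρ) := by
  have h1 := norm_one_sub_ge hx
  have hpos : 0 < 1 - ρ := by linarith
  rw [gFun, norm_div]
  exact div_le_div_of_nonneg_left (norm_nonneg _) hpos h1

theorem norm_hFun_le_of_le {x : ℂ} {ρ : ℝ} (hρ : ρ < 1) (hx : ‖x‖ ≤ ρ) :
    ‖hFun x‖ ≤ ‖x‖ / (1 - ρ) ^ 2 := by
  have h1 := norm_one_sub_ge hx
  have hpos : 0 < 1 - ρ := by linarith
  rw [hFun, norm_div, norm_pow]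
  exact div_le_div_of_nonneg_left (norm_nonneg _) (by positivity) (pow_le_pow_left₀ hpos.le h1 2)

theorem norm_eExp_lt_one {τ : ℂ} (hτ : 0 < τ.im) : ‖eExp τ‖ < 1 := by
  rw [norm_eExp, Real.exp_lt_one_iff]
  have := Real.pi_pos
  nlinarith

theorem eExp_ne_one_of_norm_lt {w : ℂ} (h : ‖eExp w‖ < 1) : eExp w ≠ 1 := by
  intro h1
  rw [h1, norm_one] at h
  exact lt_irrefl _ h

theorem eExp_nat_mul (τ : ℂ) (n : ℕ) : eExp (n * τ) = eExp τ ^ n := by
  rw [eExp, eExp, ← Complex.exp_nat_mul]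
  ring_nf

theorem eExp_add_nat_mul (w τ : ℂ) (n : ℕ) : eExp (w + n * τ) = eExp w * eExp τ ^ n := by
  rw [eExp_add, eExp_nat_mul]

theorem norm_eExp_add_nat_mul (w τ : ℂ) (n : ℕ) :
    ‖eExp (w + n * τ)‖ = ‖eExp w‖ * ‖eExp τ‖ ^ n := by
  rw [eExp_add_nat_mul, norm_mul, norm_pow]

theorem eventually_norm_eExp_le (w : ℂ) {τ : ℂ} (hτ : 0 < τ.im) {ε : ℝ} (hε : 0 < ε) :
    ∀ᶠ n : ℕ in atTop, ‖eExp (w + n * τ)‖ ≤ ε := by
  have h1 : Tendsto (fun n : ℕ => ‖eExp w‖ * ‖eExp τ‖ ^ n) atTop (𝓝 (‖eExp w‖ * 0)) :=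
    (tendsto_pow_atTop_nhds_zero_of_lt_one (norm_nonneg _) (norm_eExp_lt_one hτ)).const_mul _
  rw [mul_zero] at h1
  have := h1.eventually (Iic_mem_nhds hε)
  filter_upwards [this] with n hn
  rw [norm_eExp_add_nat_mul]
  exact hn

theorem summable_norm_eExp (w : ℂ) {τ : ℂ} (hτ : 0 < τ.im) :
    Summable fun n : ℕ => ‖eExp (w + n * τ)‖ := by
  simp_rw [norm_eExp_add_nat_mul]
  exact (summable_geometric_of_lt_one (norm_nonneg _) (norm_eExp_lt_one hτ)).mul_left _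

theorem summable_gFun_eExp (w : ℂ) {τ : ℂ} (hτ : 0 < τ.im) :
    Summable fun n : ℕ => gFun (eExp (w + n * τ)) := by
  refine Summable.of_norm_bounded_eventually_nat ((summable_norm_eExp w hτ).mul_left 2) ?_
  filter_upwards [eventually_norm_eExp_le w hτ (by norm_num : (0 : ℝ) < 1 / 2)] with n hn
  exact norm_gFun_le hn

theorem summable_hFun_eExp (w : ℂ) {τ : ℂ} (hτ : 0 < τ.im) :
    Summable fun n : ℕ => hFun (eExp (w + n * τ)) := by
  refine Summable.of_norm_bounded_eventually_nat ((summable_norm_eExp w hτ).mul_left 4) ?_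
  filter_upwards [eventually_norm_eExp_le w hτ (by norm_num : (0 : ℝ) < 1 / 2)] with n hn
  exact norm_hFun_le hn

/-! ### the function `Z` -/

/-- `g(e(-z) q^{n+1}) - g(e(z) q^{n+1})`. -/
def zTerm (z τ : ℂ) (n : ℕ) : ℂ :=
  gFun (eExp (-z + ((n + 1 : ℕ) : ℂ) * τ)) - gFun (eExp (z + ((n + 1 : ℕ) : ℂ) * τ))

/-- `Z(z, τ) = π cot(πz) + 2πi ∑_{n ≥ 1} (g(e(-z) qⁿ) - g(e(z) qⁿ))`. -/
def zFun (z τ : ℂ) : ℂ := π * Complex.cot (π * z) + 2 * π * I * ∑' n : ℕ, zTerm z τ n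

theorem summable_gFun_succ (w : ℂ) {τ : ℂ} (hτ : 0 < τ.im) :
    Summable fun n : ℕ => gFun (eExp (w + ((n + 1 : ℕ) : ℂ) * τ)) :=
  (summable_nat_add_iff 1).mpr (summable_gFun_eExp w hτ)

theorem summable_hFun_succ (w : ℂ) {τ : ℂ} (hτ : 0 < τ.im) :
    Summable fun n : ℕ => hFun (eExp (w + ((n + 1 : ℕ) : ℂ) * τ)) :=
  (summable_nat_add_iff 1).mpr (summable_hFun_eExp w hτ)

theorem summable_zTerm (z : ℂ) {τ : ℂ} (hτ : 0 < τ.im) : Summable (zTerm z τ) :=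
  (summable_gFun_succ (-z) hτ).sub (summable_gFun_succ z hτ)

theorem zTerm_neg (z τ : ℂ) (n : ℕ) : zTerm (-z) τ n = -zTerm z τ n := by
  rw [zTerm, zTerm, neg_neg]
  ring

theorem zFun_neg (z τ : ℂ) : zFun (-z) τ = -zFun z τ := by
  rw [zFun, zFun]
  simp_rw [zTerm_neg]
  rw [tsum_neg, mul_neg, Complex.cot_eq_cos_div_sin, Complex.cot_eq_cos_div_sin, mul_neg,
    Complex.cos_neg, Complex.sin_neg, div_neg]
  ring

theorem zTerm_add_int (z τ : ℂ) (k : ℤ) (n : ℕ) : zTerm (z + k) τ n = zTerm z τ n := by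
  rw [zTerm, zTerm]
  have e1 : -(z + (k : ℂ)) + ((n + 1 : ℕ) : ℂ) * τ
      = (-z + ((n + 1 : ℕ) : ℂ) * τ) + ((-k : ℤ) : ℂ) := by
    push_cast
    ring
  have e2 : (z + (k : ℂ)) + ((n + 1 : ℕ) : ℂ) * τ = (z + ((n + 1 : ℕ) : ℂ) * τ) + (k : ℂ) := by
    ring
  rw [e1, e2, eExp_add_int, eExp_add_int]

theorem zFun_add_int {z : ℂ} (hz : eExp z ≠ 1) (τ : ℂ) (k : ℤ) : zFun (z + k) τ = zFun z τ := by
  rw [zFun, zFun]
  simp_rw [zTerm_add_int]
  have hz' : eExp (z + k) ≠ 1 := by rwa [eExp_add_int]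
  rw [eis1_pi_cot_eq hz, eis1_pi_cot_eq hz', eExp_add_int]

theorem zFun_add_one {z : ℂ} (hz : eExp z ≠ 1) (τ : ℂ) : zFun (z + 1) τ = zFun z τ := by
  have := zFun_add_int hz τ 1
  simpa using this

/-- `Z(z + τ) = Z(z) - 2πi`. -/
theorem zFun_add_tau {z τ : ℂ} (hτ : 0 < τ.im) (hz : eExp z ≠ 1) (hz' : eExp (z + τ) ≠ 1) :
    zFun (z + τ) τ = zFun z τ - 2 * π * I := by
  -- `a n = g(e(-z + nτ))`, `b n = g(e(z + nτ))`
  have ha := summable_gFun_eExp (-z) hτ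
  have hb := summable_gFun_eExp z hτ
  have hb1 : Summable fun n : ℕ => gFun (eExp (z + ((n + 1 : ℕ) : ℂ) * τ)) :=
    summable_gFun_succ z hτ
  have hb2 : Summable fun n : ℕ => gFun (eExp (z + ((n + 1 + 1 : ℕ) : ℂ) * τ)) :=
    (summable_nat_add_iff 1).mpr hb1
  have ha1 : Summable fun n : ℕ => gFun (eExp (-z + ((n + 1 : ℕ) : ℂ) * τ)) :=
    summable_gFun_succ (-z) hτ
  have e1 : ∀ n : ℕ, zTerm (z + τ) τ n
      = gFun (eExp (-z + (n : ℂ) * τ)) - gFun (eExp (z + ((n + 1 + 1 : ℕ) : ℂ) * τ)) := by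
    intro n
    rw [zTerm]
    congr 3
    · push_cast
      ring
    · push_cast
      ring
  have s1 : ∑' n : ℕ, zTerm (z + τ) τ n
      = ∑' n : ℕ, gFun (eExp (-z + (n : ℂ) * τ))
        - ∑' n : ℕ, gFun (eExp (z + ((n + 1 + 1 : ℕ) : ℂ) * τ)) := by
    simp_rw [e1]
    exact Summable.tsum_sub ha hb2
  have s2 : ∑' n : ℕ, zTerm z τ n
      = ∑' n : ℕ, gFun (eExp (-z + ((n + 1 : ℕ) : ℂ) * τ))
        - ∑' n : ℕ, gFun (eExp (z + ((n + 1 : ℕ) : ℂ) * τ)) := by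
    unfold zTerm
    exact Summable.tsum_sub ha1 hb1
  have s3 : ∑' n : ℕ, gFun (eExp (-z + (n : ℂ) * τ))
      = gFun (eExp (-z)) + ∑' n : ℕ, gFun (eExp (-z + ((n + 1 : ℕ) : ℂ) * τ)) := by
    rw [ha.tsum_eq_zero_add]
    simp
  have s4 : ∑' n : ℕ, gFun (eExp (z + ((n + 1 : ℕ) : ℂ) * τ))
      = gFun (eExp (z + τ)) + ∑' n : ℕ, gFun (eExp (z + ((n + 1 + 1 : ℕ) : ℂ) * τ)) := by
    rw [hb1.tsum_eq_zero_add]
    simp
  have hg : gFun (eExp z) + gFun (eExp (-z)) = -1 := by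
    rw [eExp_neg]
    exact gFun_add_gFun_inv (eExp_ne_zero z) hz
  rw [zFun, zFun, eis1_pi_cot_eq hz, eis1_pi_cot_eq hz', s1, s2, s3, s4]
  linear_combination (2 * π * I) * hg


/-! ### the lattice `ℤτ + ℤ` -/

/-- `z ∈ ℤτ + ℤ`. -/
def IsLat (z τ : ℂ) : Prop := ∃ m n : ℤ, z = m * τ + n

/-- the period pair `(τ, 1)`. -/
def latPair (τ : ℂ) (hτ : 0 < τ.im) : PeriodPair where
  ω₁ := τ
  ω₂ := 1
  indep := by
    rw [LinearIndependent.pair_iff]
    intro s t h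
    have him := congrArg Complex.im h
    have hre := congrArg Complex.re h
    simp at him hre
    have hs : s = 0 := by
      rcases him with h1 | h1
      · exact h1
      · exact absurd h1 (ne_of_gt hτ)
    subst hs
    simp at hre
    exact ⟨rfl, hre⟩

theorem mem_latPair {τ : ℂ} (hτ : 0 < τ.im) (z : ℂ) :
    z ∈ (latPair τ hτ).lattice ↔ IsLat z τ := by
  rw [PeriodPair.mem_lattice]
  constructor
  · rintro ⟨m, n, h⟩
    refine ⟨m, n, ?_⟩
    rw [← h]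
    simp [latPair]
  · rintro ⟨m, n, h⟩
    refine ⟨m, n, ?_⟩
    rw [h]
    simp [latPair]

theorem isOpen_not_isLat {τ : ℂ} (hτ : 0 < τ.im) : IsOpen {z : ℂ | ¬ IsLat z τ} := by
  have h := (latPair τ hτ).isClosed_lattice.isOpen_compl
  have e : {z : ℂ | ¬ IsLat z τ} = ((latPair τ hτ).lattice : Set ℂ)ᶜ := by
    ext z
    simp only [Set.mem_ofPred_eq, Set.mem_compl_iff, SetLike.mem_coe, mem_latPair]
  rw [e]
  exact h

theorem not_isLat_add {z τ : ℂ} (hz : ¬ IsLat z τ) (m n : ℤ) : ¬ IsLat (z + m * τ + n) τ := by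
  rintro ⟨a, b, h⟩
  apply hz
  refine ⟨a - m, b - n, ?_⟩
  push_cast
  linear_combination h

theorem not_isLat_neg {z τ : ℂ} (hz : ¬ IsLat z τ) : ¬ IsLat (-z) τ := by
  rintro ⟨a, b, h⟩
  apply hz
  refine ⟨-a, -b, ?_⟩
  push_cast
  linear_combination -h

theorem eExp_ne_one_of_not_isLat {z τ : ℂ} (hz : ¬ IsLat z τ) (m : ℤ) :
    eExp (z + m * τ) ≠ 1 := by
  intro h
  obtain ⟨n, hn⟩ := (eExp_eq_one_iff _).mp h
  apply hz
  refine ⟨-m, n, ?_⟩
  push_cast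
  linear_combination hn

theorem eExp_ne_one_of_not_isLat' {z τ : ℂ} (hz : ¬ IsLat z τ) : eExp z ≠ 1 := by
  have := eExp_ne_one_of_not_isLat hz 0
  simpa using this

/-- `Z(z + mτ) = Z(z) - 2πi m`. -/
theorem zFun_add_int_mul_tau {z τ : ℂ} (hτ : 0 < τ.im) (hz : ¬ IsLat z τ) (m : ℤ) :
    zFun (z + m * τ) τ = zFun z τ - 2 * π * I * m := by
  induction m using Int.induction_on with
  | zero => simp
  | succ k ih =>
    have h1 := eExp_ne_one_of_not_isLat hz (k : ℤ)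
    have h2 := eExp_ne_one_of_not_isLat hz ((k : ℤ) + 1)
    have e : z + (((k : ℤ) + 1 : ℤ) : ℂ) * τ = z + ((k : ℤ) : ℂ) * τ + τ := by
      push_cast
      ring
    rw [e] at h2 ⊢
    rw [zFun_add_tau hτ h1 h2, ih]
    push_cast
    ring
  | pred k ih =>
    have h1 := eExp_ne_one_of_not_isLat hz (-(k : ℤ) - 1)
    have h2 := eExp_ne_one_of_not_isLat hz (-(k : ℤ))
    have e : z + ((-(k : ℤ) : ℤ) : ℂ) * τ = z + ((-(k : ℤ) - 1 : ℤ) : ℂ) * τ + τ := by
      push_cast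
      ring
    rw [e] at h2
    have h3 := zFun_add_tau hτ h1 h2
    rw [← e, ih] at h3
    push_cast at h3 ⊢
    linear_combination -h3

/-- `Z(z + mτ + n) = Z(z) - 2πi m`. -/
theorem zFun_add_lat {z τ : ℂ} (hτ : 0 < τ.im) (hz : ¬ IsLat z τ) (m n : ℤ) :
    zFun (z + m * τ + n) τ = zFun z τ - 2 * π * I * m := by
  have h1 : eExp (z + m * τ) ≠ 1 := eExp_ne_one_of_not_isLat hz m
  rw [zFun_add_int h1, zFun_add_int_mul_tau hτ hz]

/-! ### the derivative -/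

/-- `W(z, τ) = ∑_{m ∈ ℤ} h(e(z + mτ))`. -/
def wFun (z τ : ℂ) : ℂ := ∑' m : ℤ, hFun (eExp (z + m * τ))

theorem wFun_add_int_mul_tau (z τ : ℂ) (k : ℤ) : wFun (z + k * τ) τ = wFun z τ := by
  rw [wFun, wFun, ← (Equiv.addLeft k).tsum_eq (fun m : ℤ => hFun (eExp (z + m * τ)))]
  refine tsum_congr fun m => ?_
  simp only [Equiv.coe_addLeft]
  push_cast
  congr 2
  ring

theorem hFun_eExp_neg (w : ℂ) : hFun (eExp (-w)) = hFun (eExp w) := by
  rw [eExp_neg, hFun_inv (eExp_ne_zero w)]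

theorem wFun_eq (z : ℂ) {τ : ℂ} (hτ : 0 < τ.im) :
    wFun z τ = hFun (eExp z)
      + ∑' n : ℕ, (hFun (eExp (-z + ((n + 1 : ℕ) : ℂ) * τ))
          + hFun (eExp (z + ((n + 1 : ℕ) : ℂ) * τ))) := by
  have h1 := summable_hFun_succ z hτ
  have h2 := summable_hFun_succ (-z) hτ
  have e := tsum_of_add_one_of_neg_add_one (f := fun m : ℤ => hFun (eExp (z + m * τ)))
    (by
      refine h1.congr fun n => ?_
      push_cast
      rfl)
    (by
      refine h2.congr fun n => ?_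
      rw [← hFun_eExp_neg]
      congr 2
      push_cast
      ring)
  rw [wFun, e, Summable.tsum_add h2 h1]
  have e3 : ∑' n : ℕ, hFun (eExp (z + (((n : ℤ) + 1 : ℤ) : ℂ) * τ))
      = ∑' n : ℕ, hFun (eExp (z + ((n + 1 : ℕ) : ℂ) * τ)) := by
    refine tsum_congr fun n => ?_
    push_cast
    rfl
  have e4 : ∑' n : ℕ, hFun (eExp (z + ((-((n : ℤ) + 1) : ℤ) : ℂ) * τ))
      = ∑' n : ℕ, hFun (eExp (-z + ((n + 1 : ℕ) : ℂ) * τ)) := by
    refine tsum_congr fun n => ?_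
    rw [← hFun_eExp_neg]
    congr 2
    push_cast
    ring
  rw [e3, e4]
  simp only [Int.cast_zero, zero_mul, add_zero]
  ring

theorem hasDerivAt_gFun_eExp_add (c : ℂ) {y : ℂ} (h : eExp (y + c) ≠ 1) :
    HasDerivAt (fun y : ℂ => gFun (eExp (y + c))) (2 * π * I * hFun (eExp (y + c))) y := by
  have h1 : HasDerivAt (fun y : ℂ => y + c) 1 y := (hasDerivAt_id y).add_const c
  have h2 := (hasDerivAt_gFun_eExp h).comp y h1
  rw [mul_one] at h2
  exact h2

theorem hasDerivAt_gFun_eExp_neg_add (c : ℂ) {y : ℂ} (h : eExp (-y + c) ≠ 1) :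
    HasDerivAt (fun y : ℂ => gFun (eExp (-y + c))) (-(2 * π * I * hFun (eExp (-y + c)))) y := by
  have h1 : HasDerivAt (fun y : ℂ => -y + c) (-1) y := ((hasDerivAt_id y).neg).add_const c
  have h2 := (hasDerivAt_gFun_eExp h).comp y h1
  rw [mul_neg, mul_one] at h2
  exact h2

theorem norm_eExp_mul_le {y τ : ℂ} {r : ℝ} (h : r ≤ y.im + τ.im) :
    ‖eExp y‖ * ‖eExp τ‖ ≤ Real.exp (-2 * π * r) := by
  rw [norm_eExp, norm_eExp, ← Real.exp_add, Real.exp_le_exp]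
  have := Real.pi_pos
  nlinarith

theorem hasDerivAt_zFun_strip {z τ : ℂ} (hτ : 0 < τ.im) (hz : |z.im| < τ.im)
    (hz1 : eExp z ≠ 1) :
    HasDerivAt (fun y : ℂ => zFun y τ) (4 * π ^ 2 * wFun z τ) z := by
  set r : ℝ := (τ.im - |z.im|) / 2 with hr_def
  have hr : 0 < r := by
    rw [hr_def]
    linarith
  set ρ : ℝ := Real.exp (-2 * π * r) with hρ_def
  have hρ1 : ρ < 1 := by
    rw [hρ_def, Real.exp_lt_one_iff]
    have := Real.pi_pos
    nlinarith
  have hρ0 : 0 < ρ := Real.exp_pos _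
  set Q : ℝ := ‖eExp τ‖ with hQ_def
  have hQ0 : 0 ≤ Q := norm_nonneg _
  have hQ1 : Q < 1 := norm_eExp_lt_one hτ
  -- the imaginary part on the ball
  have him : ∀ y ∈ Metric.ball z r, |y.im| ≤ τ.im - r := by
    intro y hy
    rw [Metric.mem_ball, dist_eq_norm] at hy
    have h1 : |(y - z).im| ≤ ‖y - z‖ := Complex.abs_im_le_norm _
    rw [Complex.sub_im] at h1
    have h2 : |y.im| ≤ |y.im - z.im| + |z.im| := by
      have := abs_add_le (y.im - z.im) z.im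
      simpa using this
    rw [hr_def] at hy ⊢
    linarith
  have hb1 : ∀ y ∈ Metric.ball z r, ∀ n : ℕ,
      ‖eExp (y + ((n + 1 : ℕ) : ℂ) * τ)‖ ≤ ρ * Q ^ n := by
    intro y hy n
    rw [norm_eExp_add_nat_mul, pow_succ', ← mul_assoc]
    refine mul_le_mul_of_nonneg_right ?_ (pow_nonneg hQ0 n)
    refine norm_eExp_mul_le ?_
    have := him y hy
    have := neg_abs_le y.im
    linarith
  have hb2 : ∀ y ∈ Metric.ball z r, ∀ n : ℕ,
      ‖eExp (-y + ((n + 1 : ℕ) : ℂ) * τ)‖ ≤ ρ * Q ^ n := by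
    intro y hy n
    rw [norm_eExp_add_nat_mul, pow_succ', ← mul_assoc]
    refine mul_le_mul_of_nonneg_right ?_ (pow_nonneg hQ0 n)
    refine norm_eExp_mul_le ?_
    have := him y hy
    have := le_abs_self y.im
    rw [Complex.neg_im]
    linarith
  have hle : ∀ n : ℕ, ρ * Q ^ n ≤ ρ := by
    intro n
    have : Q ^ n ≤ 1 := pow_le_one₀ hQ0 hQ1.le
    nlinarith
  have hsum : Summable fun n : ℕ => 2 * (2 * π * (ρ * Q ^ n / (1 - ρ) ^ 2)) := by
    have := (summable_geometric_of_lt_one hQ0 hQ1).mul_left (2 * (2 * π * (ρ / (1 - ρ) ^ 2)))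
    refine this.congr fun n => ?_
    ring
  have hmain := hasDerivAt_tsum_of_isPreconnected (g := fun (n : ℕ) (y : ℂ) => zTerm y τ n)
    (g' := fun (n : ℕ) (y : ℂ) => -(2 * π * I * hFun (eExp (-y + ((n + 1 : ℕ) : ℂ) * τ)))
      - 2 * π * I * hFun (eExp (y + ((n + 1 : ℕ) : ℂ) * τ)))
    (t := Metric.ball z r) (y₀ := z) (y := z) hsum Metric.isOpen_ball
    (convex_ball z r).isPreconnected (fun n y hy => ?_) (fun n y hy => ?_)
    (Metric.mem_ball_self hr) (summable_zTerm z hτ) (Metric.mem_ball_self hr)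
  · -- assemble
    have hcot := eis1_hasDerivAt_pi_cot hz1
    have htot := hcot.add (hmain.const_mul (2 * π * I))
    have hval : 4 * π ^ 2 * hFun (eExp z)
        + 2 * π * I * ∑' n : ℕ, (-(2 * π * I * hFun (eExp (-z + ((n + 1 : ℕ) : ℂ) * τ)))
            - 2 * π * I * hFun (eExp (z + ((n + 1 : ℕ) : ℂ) * τ)))
        = 4 * π ^ 2 * wFun z τ := by
      rw [wFun_eq z hτ]
      have e : ∀ n : ℕ, (-(2 * π * I * hFun (eExp (-z + ((n + 1 : ℕ) : ℂ) * τ)))
            - 2 * π * I * hFun (eExp (z + ((n + 1 : ℕ) : ℂ) * τ)))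
          = -(2 * π * I) * (hFun (eExp (-z + ((n + 1 : ℕ) : ℂ) * τ))
            + hFun (eExp (z + ((n + 1 : ℕ) : ℂ) * τ))) := fun n => by ring
      simp_rw [e]
      rw [tsum_mul_left]
      linear_combination (-4 * π ^ 2 * ∑' n : ℕ, (hFun (eExp (-z + ((n + 1 : ℕ) : ℂ) * τ))
            + hFun (eExp (z + ((n + 1 : ℕ) : ℂ) * τ)))) * Complex.I_mul_I
    rw [hval] at htot
    exact htot
  · -- the derivative of the terms
    have h1 : eExp (-y + ((n + 1 : ℕ) : ℂ) * τ) ≠ 1 :=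
      eExp_ne_one_of_norm_lt (lt_of_le_of_lt ((hb2 y hy n).trans (hle n)) hρ1)
    have h2 : eExp (y + ((n + 1 : ℕ) : ℂ) * τ) ≠ 1 :=
      eExp_ne_one_of_norm_lt (lt_of_le_of_lt ((hb1 y hy n).trans (hle n)) hρ1)
    exact (hasDerivAt_gFun_eExp_neg_add _ h1).sub (hasDerivAt_gFun_eExp_add _ h2)
  · -- the bound
    have h1 := norm_hFun_le_of_le hρ1 ((hb2 y hy n).trans (hle n))
    have h2 := norm_hFun_le_of_le hρ1 ((hb1 y hy n).trans (hle n))
    have hpos : 0 < (1 - ρ) ^ 2 := by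
      have : 0 < 1 - ρ := by linarith
      positivity
    have h1' : ‖hFun (eExp (-y + ((n + 1 : ℕ) : ℂ) * τ))‖ ≤ ρ * Q ^ n / (1 - ρ) ^ 2 :=
      h1.trans (div_le_div_of_nonneg_right (hb2 y hy n) hpos.le)
    have h2' : ‖hFun (eExp (y + ((n + 1 : ℕ) : ℂ) * τ))‖ ≤ ρ * Q ^ n / (1 - ρ) ^ 2 :=
      h2.trans (div_le_div_of_nonneg_right (hb1 y hy n) hpos.le)
    have hn2 : ‖(2 * π * I : ℂ)‖ = 2 * π := by
      simp [abs_of_pos Real.pi_pos]
    calc ‖-(2 * π * I * hFun (eExp (-y + ((n + 1 : ℕ) : ℂ) * τ)))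
          - 2 * π * I * hFun (eExp (y + ((n + 1 : ℕ) : ℂ) * τ))‖
        ≤ ‖2 * π * I * hFun (eExp (-y + ((n + 1 : ℕ) : ℂ) * τ))‖
          + ‖2 * π * I * hFun (eExp (y + ((n + 1 : ℕ) : ℂ) * τ))‖ := by
          refine (norm_sub_le _ _).trans ?_
          rw [norm_neg]
      _ = 2 * π * ‖hFun (eExp (-y + ((n + 1 : ℕ) : ℂ) * τ))‖
          + 2 * π * ‖hFun (eExp (y + ((n + 1 : ℕ) : ℂ) * τ))‖ := by
          rw [norm_mul, hn2, norm_mul, hn2]
      _ ≤ 2 * π * (ρ * Q ^ n / (1 - ρ) ^ 2) + 2 * π * (ρ * Q ^ n / (1 - ρ) ^ 2) := by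
          have := Real.pi_pos
          gcongr
      _ = _ := by ring

theorem im_add_int_mul (z τ : ℂ) (k : ℤ) : (z + (k : ℂ) * τ).im = z.im + k * τ.im := by
  simp

theorem exists_int_strip (z : ℂ) {τ : ℂ} (hτ : 0 < τ.im) :
    ∃ k : ℤ, |(z + k * τ).im| < τ.im := by
  refine ⟨-round (z.im / τ.im), ?_⟩
  have h1 := abs_sub_round (z.im / τ.im)
  have e : (z + ((-round (z.im / τ.im) : ℤ) : ℂ) * τ).im
      = (z.im / τ.im - round (z.im / τ.im)) * τ.im := by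
    rw [im_add_int_mul]
    push_cast
    field_simp
    ring
  rw [e, abs_mul, abs_of_pos hτ]
  have : |z.im / τ.im - round (z.im / τ.im)| * τ.im ≤ 1 / 2 * τ.im :=
    mul_le_mul_of_nonneg_right h1 hτ.le
  linarith

/-- `∂Z/∂z = 4π² W` off the lattice. -/
theorem hasDerivAt_zFun {z τ : ℂ} (hτ : 0 < τ.im) (hz : ¬ IsLat z τ) :
    HasDerivAt (fun y : ℂ => zFun y τ) (4 * π ^ 2 * wFun z τ) z := by
  obtain ⟨k, hk⟩ := exists_int_strip z hτ
  have h1 : eExp (z + k * τ) ≠ 1 := eExp_ne_one_of_not_isLat hz k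
  have h2 := hasDerivAt_zFun_strip hτ hk h1
  rw [wFun_add_int_mul_tau] at h2
  have h3 : HasDerivAt (fun y : ℂ => y + (k : ℂ) * τ) 1 z := (hasDerivAt_id z).add_const _
  have h4 := (h2.comp z h3).add_const (2 * π * I * k)
  simp only [mul_one] at h4
  refine h4.congr_of_eventuallyEq ?_
  filter_upwards [(isOpen_not_isLat hτ).mem_nhds hz] with y hy
  simp only [Function.comp_apply]
  rw [zFun_add_int_mul_tau hτ hy]
  ring

end Fermat.Agent.S48.Eis1
end
end MergeWrap_S48_Eis1_ZetaStd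

section MergeWrap_S48_Eis1_WPStd -- from S48/Eis1/WPStd.lean

set_option autoImplicit false

/-!
# S48 (P2), weight-one Eisenstein series, file C: `℘ = -4π² W - G₂`  (helper33)

For `τ ∈ ℍ`, `L = ℤτ + ℤ` (`latPair`), `z ∉ L`:

  `℘[L](z) = -4π² ∑_{m ∈ ℤ} h(e(z + mτ)) - G₂(τ)`,   `h(x) = x/(1-x)²`, `e(w) = exp(2πi w)`

(`-4π² h(e(w)) = π²/sin²(πw) = ∑_n 1/(w+n)²`; `G₂` = Mathlib's `EisensteinSeries.G2`).
Consequently `∂Z/∂z = -(℘ + G₂)`.
-/

noncomputable section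

open Complex Real Filter Topology UpperHalfPlane EisensteinSeries

namespace Fermat.Agent.S48.Eis1

theorem summable_hFun_int (w : ℂ) {τ : ℂ} (hτ : 0 < τ.im) :
    Summable fun m : ℤ => hFun (eExp (w + m * τ)) := by
  refine Summable.of_add_one_of_neg_add_one ?_ ?_
  · refine (summable_hFun_succ w hτ).congr fun n => ?_
    push_cast
    rfl
  · refine (summable_hFun_succ (-w) hτ).congr fun n => ?_
    rw [← hFun_eExp_neg]
    congr 2
    push_cast
    ring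

theorem wFun_neg_index (z τ : ℂ) : ∑' m : ℤ, hFun (eExp (z - m * τ)) = wFun z τ := by
  rw [wFun, ← tsum_comp_neg (fun m : ℤ => hFun (eExp (z + m * τ)))]
  refine tsum_congr fun m => ?_
  push_cast
  congr 2
  ring

theorem summable_one_div_sub_sq (w : ℂ) : Summable fun n : ℤ => 1 / (w - n) ^ 2 := by
  have h := (summable_one_div_add_sq w).comp_injective (i := fun n : ℤ => -n) neg_injective
  refine h.congr fun n => ?_
  simp only [Function.comp_apply]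
  push_cast
  ring_nf

theorem tsum_one_div_sub_sq {w : ℂ} (hw : eExp w ≠ 1) :
    ∑' n : ℤ, 1 / (w - n) ^ 2 = -(4 * π ^ 2 * hFun (eExp w)) := by
  rw [← eis1_tsum_inv_sq hw, ← tsum_comp_neg (fun n : ℤ => 1 / (w + n) ^ 2)]
  refine tsum_congr fun n => ?_
  push_cast
  ring_nf

theorem e2Summand_eq_tsum (m : ℤ) (τ : ℍ) :
    e2Summand m τ = ∑' n : ℤ, 1 / ((m : ℂ) * τ + n) ^ 2 := by
  simp [e2Summand, eisSummand]

theorem eExp_int_mul_ne_one {m : ℤ} (hm : m ≠ 0) {τ : ℂ} (hτ : 0 < τ.im) :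
    eExp ((m : ℂ) * τ) ≠ 1 := by
  intro h
  obtain ⟨n, hn⟩ := (eExp_eq_one_iff _).mp h
  have him := congrArg Complex.im hn
  simp at him
  rcases him with h1 | h1
  · exact hm h1
  · exact absurd h1 (ne_of_gt hτ)

theorem e2Summand_eq_hFun {m : ℤ} (hm : m ≠ 0) (τ : ℍ) :
    e2Summand m τ = -(4 * π ^ 2 * hFun (eExp ((m : ℂ) * τ))) := by
  rw [e2Summand_eq_tsum, eis1_tsum_inv_sq (eExp_int_mul_ne_one hm τ.im_pos)]

theorem summable_e2Summand_int (τ : ℍ) : Summable fun m : ℤ => e2Summand m τ := by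
  have h1 : Summable fun m : ℤ => -(4 * π ^ 2 * hFun (eExp ((0 : ℂ) + (m : ℂ) * τ))) :=
    ((summable_hFun_int 0 τ.im_pos).mul_left (4 * π ^ 2 : ℂ)).neg
  have h2 : Summable fun m : ℤ => if m = 0
      then e2Summand 0 τ + 4 * π ^ 2 * hFun (eExp ((0 : ℂ) + ((0 : ℤ) : ℂ) * τ)) else 0 :=
    (hasSum_ite_eq (0 : ℤ) _).summable
  refine (h1.add h2).congr fun m => ?_
  by_cases hm : m = 0
  · subst hm
    simp
  · rw [if_neg hm, e2Summand_eq_hFun hm, zero_add, add_zero]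

theorem G2_eq_tsum_int (τ : ℍ) : G2 τ = ∑' m : ℤ, e2Summand m τ := by
  rw [G2]
  exact tsum_eq_of_summable_unconditional (summable_e2Summand_int τ)

/-- **L5**: `℘(z) = -4π² W(z, τ) - G₂(τ)` off the lattice. -/
theorem weierstrassP_latPair (τ : ℍ) {z : ℂ} (hz : ¬ IsLat z τ) :
    (latPair τ τ.im_pos).weierstrassP z = -(4 * π ^ 2 * wFun z τ) - G2 τ := by
  have h0 := (latPair τ τ.im_pos).hasSum_weierstrassP z
  have h1 : HasSum (fun p : ℤ × ℤ =>
      1 / (z - ((p.1 : ℂ) * τ + p.2)) ^ 2 - 1 / ((p.1 : ℂ) * τ + p.2) ^ 2)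
      ((latPair τ τ.im_pos).weierstrassP z) := by
    have h := ((latPair τ τ.im_pos).latticeEquivProd.symm.toEquiv.hasSum_iff
      (f := fun l : (latPair τ τ.im_pos).lattice =>
        1 / (z - (l : ℂ)) ^ 2 - 1 / (l : ℂ) ^ 2)).mpr h0
    have e : ((fun l : (latPair τ τ.im_pos).lattice => 1 / (z - (l : ℂ)) ^ 2 - 1 / (l : ℂ) ^ 2) ∘
        ⇑(latPair τ τ.im_pos).latticeEquivProd.symm.toEquiv)
        = fun p : ℤ × ℤ =>
          1 / (z - ((p.1 : ℂ) * τ + p.2)) ^ 2 - 1 / ((p.1 : ℂ) * τ + p.2) ^ 2 := by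
      funext p
      simp only [Function.comp_apply, LinearEquiv.coe_toEquiv,
        PeriodPair.latticeEquiv_symm_apply]
      simp [latPair]
    rw [e] at h
    exact h
  have hrow : ∀ m : ℤ, Summable fun n : ℤ =>
      1 / (z - ((m : ℂ) * τ + n)) ^ 2 - 1 / ((m : ℂ) * τ + n) ^ 2 :=
    fun m => h1.summable.prod_factor m
  rw [← h1.tsum_eq, h1.summable.tsum_prod' hrow]
  have hr : ∀ m : ℤ, ∑' n : ℤ, (1 / (z - ((m : ℂ) * τ + n)) ^ 2 - 1 / ((m : ℂ) * τ + n) ^ 2)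
      = -(4 * π ^ 2 * hFun (eExp (z - m * τ))) - e2Summand m τ := by
    intro m
    have s1 : Summable fun n : ℤ => 1 / (z - ((m : ℂ) * τ + n)) ^ 2 := by
      refine (summable_one_div_sub_sq (z - m * τ)).congr fun n => ?_
      ring_nf
    have s2 : Summable fun n : ℤ => 1 / ((m : ℂ) * τ + n) ^ 2 :=
      summable_one_div_add_sq _
    have hne : eExp (z - m * τ) ≠ 1 := by
      have := eExp_ne_one_of_not_isLat hz (-m)
      rw [Int.cast_neg, neg_mul, ← sub_eq_add_neg] at this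
      exact this
    rw [Summable.tsum_sub s1 s2, e2Summand_eq_tsum, ← tsum_one_div_sub_sq hne]
    congr 1
    refine tsum_congr fun n => ?_
    ring_nf
  simp_rw [hr]
  have s3 : Summable fun m : ℤ => -(4 * π ^ 2 * hFun (eExp (z - m * τ))) := by
    have := ((summable_hFun_int z τ.im_pos).comp_injective (i := fun n : ℤ => -n)
      neg_injective).mul_left (4 * π ^ 2 : ℂ)
    refine this.neg.congr fun m => ?_
    simp only [Function.comp_apply]
    push_cast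
    ring_nf
  rw [Summable.tsum_sub s3 (summable_e2Summand_int τ), ← G2_eq_tsum_int, tsum_neg,
    tsum_mul_left, wFun_neg_index]

/-- `∂Z/∂z = -(℘ + G₂)`. -/
theorem hasDerivAt_zFun_wp (τ : ℍ) {z : ℂ} (hz : ¬ IsLat z τ) :
    HasDerivAt (fun y : ℂ => zFun y τ)
      (-((latPair τ τ.im_pos).weierstrassP z + G2 τ)) z := by
  have h := hasDerivAt_zFun τ.im_pos hz
  rw [weierstrassP_latPair τ hz]
  convert h using 1
  ring

end Fermat.Agent.S48.Eis1
end
end MergeWrap_S48_Eis1_WPStd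

section MergeWrap_S48_Eis1_Homog -- from S48/Eis1/Homog.lean

set_option autoImplicit false

/-!
# S48 (P2), weight-one Eisenstein series, file D: homogeneity  (helper33)

For `γ = (a b; c d) ∈ SL(2, ℤ)`, `τ ∈ ℍ`, `j = cτ + d`:

* `isLat_smul_iff`        : `z ∈ ℤ(γτ) + ℤ ↔ j z ∈ ℤτ + ℤ`;
* `weierstrassP_smul`     : `℘(z; γτ) = j² ℘(j z; τ)`;
* `G2_smul`               : `G₂(γτ) = j² G₂(τ) - 2πi c j`   (Mathlib `G2_slash_action`);
* `zFun_smul`             : `Z(z / j, γτ) = j Z(z, τ) + 2πi c z`  off the lattice.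
-/

noncomputable section

open Complex Real Filter Topology EisensteinSeries ModularForm
open UpperHalfPlane hiding I
open scoped MatrixGroups

namespace Fermat.Agent.S48.Eis1

/-- `j(γ, τ) = cτ + d`. -/
def jFac (γ : SL(2, ℤ)) (τ : ℍ) : ℂ := (γ 1 0 : ℂ) * τ + γ 1 1

theorem denom_eq_jFac (γ : SL(2, ℤ)) (τ : ℍ) : denom γ τ = jFac γ τ := by
  simp [denom, jFac]

theorem jFac_ne_zero (γ : SL(2, ℤ)) (τ : ℍ) : jFac γ τ ≠ 0 := by
  rw [← denom_eq_jFac]
  exact denom_ne_zero _ _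

theorem coe_smul_eq (γ : SL(2, ℤ)) (τ : ℍ) :
    ((γ • τ : ℍ) : ℂ) = ((γ 0 0 : ℂ) * τ + γ 0 1) / jFac γ τ := by
  rw [UpperHalfPlane.coe_specialLinearGroup_apply, jFac]
  simp

theorem sl2_det_complex (γ : SL(2, ℤ)) :
    (γ 0 0 : ℂ) * (γ 1 1 : ℂ) - (γ 0 1 : ℂ) * (γ 1 0 : ℂ) = 1 := by
  have h := γ.det_coe
  rw [Matrix.det_fin_two] at h
  exact_mod_cast h

theorem jFac_mul_smul (γ : SL(2, ℤ)) (τ : ℍ) :
    jFac γ τ * ((γ • τ : ℍ) : ℂ) = (γ 0 0 : ℂ) * τ + γ 0 1 := by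
  rw [coe_smul_eq, mul_div_cancel₀ _ (jFac_ne_zero γ τ)]

theorem isLat_smul_iff (γ : SL(2, ℤ)) (τ : ℍ) (z : ℂ) :
    IsLat z (γ • τ : ℍ) ↔ IsLat (jFac γ τ * z) τ := by
  have hdet := sl2_det_complex γ
  have hj := jFac_ne_zero γ τ
  have hjs := jFac_mul_smul γ τ
  constructor
  · rintro ⟨m, n, h⟩
    refine ⟨m * γ 0 0 + n * γ 1 0, m * γ 0 1 + n * γ 1 1, ?_⟩
    rw [h]
    push_cast
    have : jFac γ τ * ((m : ℂ) * ((γ • τ : ℍ) : ℂ) + n)
        = m * (jFac γ τ * ((γ • τ : ℍ) : ℂ)) + n * jFac γ τ := by ring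
    rw [this, hjs, jFac]
    ring
  · rintro ⟨m, n, h⟩
    refine ⟨m * γ 1 1 - n * γ 1 0, -(m * γ 0 1) + n * γ 0 0, ?_⟩
    apply mul_left_cancel₀ hj
    rw [h]
    push_cast
    have : jFac γ τ * (((m : ℂ) * (γ 1 1 : ℂ) - n * (γ 1 0 : ℂ)) * ((γ • τ : ℍ) : ℂ)
          + (-(m * (γ 0 1 : ℂ)) + n * (γ 0 0 : ℂ)))
        = ((m : ℂ) * (γ 1 1 : ℂ) - n * (γ 1 0 : ℂ)) * (jFac γ τ * ((γ • τ : ℍ) : ℂ))
          + (-(m * (γ 0 1 : ℂ)) + n * (γ 0 0 : ℂ)) * jFac γ τ := by ring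
    rw [this, hjs, jFac]
    linear_combination (-((m : ℂ) * τ + n)) * hdet

/-- homothety of `℘`. -/
theorem weierstrassP_homothety (L L' : PeriodPair) (c : ℂ) (hc : c ≠ 0)
    (h : ∀ z : ℂ, z ∈ L'.lattice ↔ c * z ∈ L.lattice) (z : ℂ) :
    L'.weierstrassP z = c ^ 2 * L.weierstrassP (c * z) := by
  have hmem' : ∀ l : L.lattice, c⁻¹ * (l : ℂ) ∈ L'.lattice := by
    intro l
    rw [h, ← mul_assoc, mul_inv_cancel₀ hc, one_mul]
    exact l.2
  let e : L'.lattice ≃ L.lattice :=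
    { toFun := fun l => ⟨c * l, (h _).mp l.2⟩
      invFun := fun l => ⟨c⁻¹ * l, hmem' l⟩
      left_inv := fun l => Subtype.ext (by
        show c⁻¹ * (c * (l : ℂ)) = l
        rw [← mul_assoc, inv_mul_cancel₀ hc, one_mul])
      right_inv := fun l => Subtype.ext (by
        show c * (c⁻¹ * (l : ℂ)) = l
        rw [← mul_assoc, mul_inv_cancel₀ hc, one_mul]) }
  rw [PeriodPair.weierstrassP, PeriodPair.weierstrassP, ← e.tsum_eq, ← tsum_mul_left]
  refine tsum_congr fun l => ?_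
  show 1 / (z - (l : ℂ)) ^ 2 - 1 / (l : ℂ) ^ 2
    = c ^ 2 * (1 / (c * z - c * (l : ℂ)) ^ 2 - 1 / (c * (l : ℂ)) ^ 2)
  by_cases hl : (l : ℂ) = 0
  · rw [hl]
    simp only [sub_zero, mul_zero, ne_eq, OfNat.ofNat_ne_zero, not_false_eq_true, zero_pow,
      div_zero]
    by_cases hz : z = 0
    · rw [hz]
      simp
    · field_simp
  · by_cases hz : z - (l : ℂ) = 0
    · have : c * z - c * (l : ℂ) = 0 := by rw [← mul_sub, hz, mul_zero]
      rw [hz, this]
      simp only [ne_eq, OfNat.ofNat_ne_zero, not_false_eq_true, zero_pow, div_zero, zero_sub]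
      field_simp
    · have : c * z - c * (l : ℂ) = c * (z - l) := by ring
      rw [this]
      field_simp

theorem weierstrassP_smul (γ : SL(2, ℤ)) (τ : ℍ) (z : ℂ) :
    (latPair (γ • τ : ℍ) (γ • τ : ℍ).im_pos).weierstrassP z
      = jFac γ τ ^ 2 * (latPair τ τ.im_pos).weierstrassP (jFac γ τ * z) := by
  refine weierstrassP_homothety _ _ (jFac γ τ) (jFac_ne_zero γ τ) (fun w => ?_) z
  exact (mem_latPair _ w).trans ((isLat_smul_iff γ τ w).trans (mem_latPair _ _).symm)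

theorem G2_smul (γ : SL(2, ℤ)) (τ : ℍ) :
    G2 (γ • τ) = jFac γ τ ^ 2 * G2 τ - 2 * π * I * (γ 1 0 : ℂ) * jFac γ τ := by
  have h := congrFun (G2_slash_action γ) τ
  rw [SL_slash_apply] at h
  simp only [Pi.sub_apply, D2] at h
  have hd : denom (Matrix.SpecialLinearGroup.toGL
      ((Matrix.SpecialLinearGroup.map (Int.castRingHom ℝ)) γ)) (τ : ℂ) = jFac γ τ :=
    denom_eq_jFac γ τ
  rw [hd] at h
  have hj := jFac_ne_zero γ τ
  have h2 : G2 (γ • τ) = (G2 τ - 2 * π * I * (γ 1 0 : ℂ) / jFac γ τ) * jFac γ τ ^ 2 := by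
    rw [← h, zpow_neg, mul_assoc]
    have : ((jFac γ τ) ^ (2 : ℤ))⁻¹ * jFac γ τ ^ 2 = 1 := by
      rw [zpow_ofNat]
      exact inv_mul_cancel₀ (pow_ne_zero 2 hj)
    rw [this, mul_one]
  rw [h2]
  field_simp


theorem isPreconnected_not_isLat {τ : ℂ} (hτ : 0 < τ.im) :
    IsPreconnected {z : ℂ | ¬ IsLat z τ} := by
  have e : {z : ℂ | ¬ IsLat z τ} = ((latPair τ hτ).lattice : Set ℂ)ᶜ := by
    ext z
    simp only [Set.mem_ofPred_eq, Set.mem_compl_iff, SetLike.mem_coe, mem_latPair]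
  rw [e]
  have hc : ((latPair τ hτ).lattice : Set ℂ).Countable := by
    have : Countable (latPair τ hτ).lattice :=
      Countable.of_equiv _ (latPair τ hτ).latticeEquivProd.symm.toEquiv
    exact Set.countable_coe_iff.mp this
  have h : 1 < Module.rank ℝ ℂ := by
    rw [Complex.rank_real_complex]
    norm_num
  exact (hc.isPathConnected_compl_of_one_lt_rank h).isConnected.isPreconnected

theorem not_isLat_div_smul (γ : SL(2, ℤ)) (τ : ℍ) {z : ℂ} (hz : ¬ IsLat z τ) :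
    ¬ IsLat (z / jFac γ τ) (γ • τ : ℍ) := by
  rw [isLat_smul_iff, mul_div_cancel₀ _ (jFac_ne_zero γ τ)]
  exact hz

/-- **L7**: `Z(z / (cτ+d), γτ) = (cτ+d) Z(z, τ) + 2πi c z`. -/
theorem zFun_smul (γ : SL(2, ℤ)) (τ : ℍ) {z : ℂ} (hz : ¬ IsLat z τ) :
    zFun (z / jFac γ τ) (γ • τ : ℍ)
      = jFac γ τ * zFun z τ + 2 * π * Complex.I * (γ 1 0 : ℂ) * z := by
  have hj := jFac_ne_zero γ τ
  set j := jFac γ τ with hj_def
  set D : ℂ → ℂ := fun w => zFun (w / j) (γ • τ : ℍ) - j * zFun w τ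
    - 2 * π * Complex.I * (γ 1 0 : ℂ) * w with hD
  have hderiv : ∀ w : ℂ, ¬ IsLat w τ → HasDerivAt D 0 w := by
    intro w hw
    have hw' := not_isLat_div_smul γ τ hw
    have h1 := hasDerivAt_zFun_wp (γ • τ) hw'
    have h1' : HasDerivAt (fun y : ℂ => y / j) (1 / j) w := by
      simpa using (hasDerivAt_id w).div_const j
    have h1c := h1.comp w h1'
    have h2 := (hasDerivAt_zFun_wp τ hw).const_mul j
    have h3 : HasDerivAt (fun y : ℂ => 2 * π * Complex.I * (γ 1 0 : ℂ) * y)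
        (2 * π * Complex.I * (γ 1 0 : ℂ)) w := by
      simpa using (hasDerivAt_id w).const_mul (2 * π * Complex.I * (γ 1 0 : ℂ))
    have h4 := (h1c.sub h2).sub h3
    have hval : -((latPair (γ • τ : ℍ) (γ • τ : ℍ).im_pos).weierstrassP (w / j) + G2 (γ • τ))
          * (1 / j)
        - j * -((latPair τ τ.im_pos).weierstrassP w + G2 τ)
        - 2 * π * Complex.I * (γ 1 0 : ℂ) = 0 := by
      rw [weierstrassP_smul, G2_smul, ← hj_def, mul_div_cancel₀ _ hj]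
      field_simp
      ring
    rw [hval] at h4
    exact h4
  have hopen := isOpen_not_isLat τ.im_pos
  have hpre := isPreconnected_not_isLat τ.im_pos
  have hdiff : DifferentiableOn ℂ D {w : ℂ | ¬ IsLat w τ} := fun w hw =>
    (hderiv w hw).differentiableAt.differentiableWithinAt
  have hd0 : Set.EqOn (deriv D) 0 {w : ℂ | ¬ IsLat w τ} := fun w hw => (hderiv w hw).deriv
  have hconst := hopen.is_const_of_deriv_eq_zero hpre hdiff hd0 (x := z) (y := -z) hz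
    (not_isLat_neg hz)
  have hodd : D (-z) = -D z := by
    simp only [hD]
    rw [neg_div, zFun_neg, zFun_neg]
    ring
  rw [hodd] at hconst
  have hz0 : D z = 0 := by
    have : (2 : ℂ) * D z = 0 := by linear_combination hconst
    rcases mul_eq_zero.mp this with h | h
    · norm_num at h
    · exact h
  simp only [hD] at hz0
  linear_combination hz0

end Fermat.Agent.S48.Eis1
end
end MergeWrap_S48_Eis1_Homog

section MergeWrap_S48_W_A1_Defs -- from S48/W/A1/Defs.lean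

set_option autoImplicit false

noncomputable section

namespace Fermat.Agent.S48WA1

open Fermat.Agent.S24 Fermat.Agent.S48.Eis1 Fermat.Agent.S48W UpperHalfPlane ModularCurve
open scoped MatrixGroups Real

/-- the division point `(r τ + s) / M`. -/
def divPt (M : ℕ) (r s : ℤ) (τ : ℍ) : ℂ := ((r : ℂ) * τ + s) / M

/-- `X_{(r,s)}(τ) = 12 ℘((rτ + s)/M; ℤτ + ℤ) / (2πi)²`. -/
def xFun (M : ℕ) (r s : ℤ) : Fun := fun τ =>
  12 * (latPair τ τ.im_pos).weierstrassP (divPt M r s τ) / (2 * π * Complex.I) ^ 2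

/-- `E₄ E₆ / Δ`. -/
def eqFun : Fun := fun τ =>
  ModularForm.E₄ τ * ModularForm.E₆ τ / ModularForm.discriminant τ

/-- the analytic **Fricke function** `F_{(r,s)} = (E₄ E₆ / Δ) · X_{(r,s)}`. -/
def frickeFun (M : ℕ) (r s : ℤ) : Fun := eqFun * xFun M r s

/-- `(r, s) ≢ (0, 0)` modulo `M`. -/
def IsNZ (M : ℕ) (r s : ℤ) : Prop := ¬ ((M : ℤ) ∣ r ∧ (M : ℤ) ∣ s)

/-- the coefficient of `uⁿ` in `X_{(r,s)}` (`0 ≤ r < M`, `ζ = e(1/M)`):
`[n = 0] (1 + [M ∣ r] 12 ζ^s/(1 - ζ^s)²) - 24 [M ∣ n ≠ 0] σ₁(n/M)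
   + 12 Σ_{d ∣ n} ([d ≡ r] (n/d) ζ^{s n/d} + [d ≡ -r] (n/d) ζ^{-s n/d})`. -/
def xCoeff (M : ℕ) (ζ : Kbar) (r s : ℤ) (n : ℕ) : Kbar :=
  (if n = 0 then 1 + (if (M : ℤ) ∣ r then 12 * (ζ ^ s / (1 - ζ ^ s) ^ 2) else 0) else 0)
    - 24 * (if n ≠ 0 ∧ M ∣ n then ∑ d ∈ (n / M).divisors, (d : Kbar) else 0)
    + 12 * ∑ d ∈ n.divisors,
        ((if ((d : ℕ) : ZMod M) = (r : ZMod M)
            then ((n / d : ℕ) : Kbar) * ζ ^ (s * ((n / d : ℕ) : ℤ)) else 0)
          + (if ((d : ℕ) : ZMod M) = -(r : ZMod M)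
            then ((n / d : ℕ) : Kbar) * ζ ^ (-(s * ((n / d : ℕ) : ℤ))) else 0))

/-- the row vector `(r, s) · γ`, first entry. -/
def actL (γ : SL(2, ℤ)) (r s : ℤ) : ℤ := r * γ 0 0 + s * γ 1 0

/-- the row vector `(r, s) · γ`, second entry. -/
def actR (γ : SL(2, ℤ)) (r s : ℤ) : ℤ := r * γ 0 1 + s * γ 1 1

/-! ### the statements of the hub -/

/-- (A1a) **`q`-expansion** of `X_{(r,s)}` at `∞`, `0 ≤ r < M`. -/
def XExpStatement : Prop :=
  ∀ (M : ℕ) [NeZero M] (ζ : Kbar), iota ζ = Complex.exp (2 * π * Complex.I / M) →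
    ∀ r s : ℤ, 0 ≤ r → r < M → IsNZ M r s →
      HasPExp M (xFun M r s) (PowerSeries.mk (xCoeff M ζ r s))

/-- (A1b) **weight 2**: `X_v(γτ) = (cτ + d)² X_{vγ}(τ)` for all `γ ∈ SL₂(ℤ)`. -/
def XSlashStatement : Prop :=
  ∀ (M : ℕ) [NeZero M] (r s : ℤ) (γ : SL(2, ℤ)) (τ : ℍ),
    xFun M r s (γ • τ) = jFac γ τ ^ 2 * xFun M (actL γ r s) (actR γ r s) τ

/-- (A1b') `X_v` depends only on `± v` modulo `M`. -/
def XPeriodStatement : Prop :=
  ∀ (M : ℕ) [NeZero M] (r s : ℤ), IsNZ M r s →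
    (∀ k l : ℤ, xFun M (r + M * k) (s + M * l) = xFun M r s) ∧
      xFun M (-r) (-s) = xFun M r s

/-- (A1-EQ) the expansion of `E₄ E₆ / Δ` is the formal `eisQuot`. -/
def EqExpStatement : Prop :=
  HasExp 1 eqFun (coeffEmb Kbar eisQuot)

/-- (A1d-1) every Fricke function is holomorphic on `ℍ`. -/
def FrickeHolStatement : Prop :=
  ∀ (M : ℕ) [NeZero M] (r s : ℤ), IsNZ M r s → IsHol (frickeFun M r s)

/-- (A1d-2) `SL₂(ℤ)` permutes the Fricke functions: `γ • F_v = F_{v γ⁻¹}`. -/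
def FrickeSmulStatement : Prop :=
  ∀ (M : ℕ) [NeZero M] (r s : ℤ) (γ : SL(2, ℤ)),
    γ • frickeFun M r s = frickeFun M (actL γ⁻¹ r s) (actR γ⁻¹ r s)

/-- (A1d-3) every Fricke function has an expansion at `∞` with coefficients in `ℚ̄`, and the
expansion of `F_{(a,0)}` is the formal `fricke M a`. -/
def FrickeExpStatement : Prop :=
  ∀ (M : ℕ) [NeZero M],
    (∀ r s : ℤ, IsNZ M r s → ∃ b : LaurentSeries Kbar, HasExp M (frickeFun M r s) b) ∧
      ∀ a : ℤ, 0 < a → a < M →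
        HasExp M (frickeFun M a 0) (coeffEmb Kbar (fricke M (a : ZMod M)))

/-- (A1-INV) a holomorphic `SL₂(ℤ)`-invariant function with an expansion at `∞` (coefficients in
`ℚ̄`, finite pole order) is a polynomial in `j` with coefficients in `ℚ̄`.
(`S24Inv.exists_aeval_of_bound` without the hypothesis `f ∈ AL M`.) -/
def InvariantStatement : Prop :=
  ∀ (M : ℕ) [NeZero M] (f : Fun) (a : LaurentSeries Kbar), IsHol f →
    (∀ γ : SL(2, ℤ), γ • f = f) → HasExp M f a →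
      ∃ P : Polynomial Kbar, Polynomial.aeval jFun P = f

/-- `f_a(τ) = F_{(a,0)}(Mτ)`: the Fricke function of the point `τ` of order `M` of
`ℂ/(ℤ Mτ + ℤ)` to the multiple `a`; its expansion in `q = e(τ)` is the formal `fricke M a`. -/
def frickeOne (M : ℕ) [NeZero M] (a : ℤ) : Fun := fun τ => frickeFun M a 0 (scale M τ)

/-- (A1c-1) the expansion of `f_a` in `q = e(τ)` is the formal `fricke M a`. -/
def FrickeOneExpStatement : Prop :=
  ∀ (M : ℕ) [NeZero M] (a : ℤ), ¬ (M : ℤ) ∣ a →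
    HasExp 1 (frickeOne M a) (coeffEmb Kbar (fricke M (a : ZMod M)))

/-- (A1c-2) `f_a ∘ γ = f_{α a}` for `γ = [α β; γ' δ] ∈ Γ₀(M)`. -/
def FrickeOneSmulStatement : Prop :=
  ∀ (M : ℕ) [NeZero M] (a : ℤ) (γ : SL(2, ℤ)), γ ∈ CongruenceSubgroup.Gamma0 M →
    ∀ τ : ℍ, frickeOne M a (γ • τ) = frickeOne M (a * γ 0 0) τ

/-- (A1-HOL) every `X_v` is holomorphic on `ℍ`. -/
def XHolStatement : Prop :=
  ∀ (M : ℕ) [NeZero M] (r s : ℤ), IsNZ M r s → IsHol (xFun M r s)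

/-- (A1d) **the Fricke functions are integral over `ℚ̄[j(q^M)]`** (formal version). -/
def FrickeIntegralStatement : Prop :=
  ∀ (M : ℕ) [NeZero M] (a : ZMod M), a ≠ 0 →
    ∃ P : Polynomial (Polynomial Kbar), P.Monic ∧
      Polynomial.eval₂
        (Polynomial.aeval (qExpand Kbar M (jqModC Kbar))).toRingHom
        (coeffEmb Kbar (fricke M a)) P = 0

end Fermat.Agent.S48WA1
end
end MergeWrap_S48_W_A1_Defs

section MergeWrap_S48_W_A1_Inv -- from S48/W/A1/Inv.lean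

set_option autoImplicit false

noncomputable section

namespace Fermat.Agent.S48WA1

open Fermat.Agent.S24 Fermat.Agent.S24Inv UpperHalfPlane
open scoped MatrixGroups Manifold

theorem isHol_neg_a1 {f : Fun} (hf : IsHol f) : IsHol (-f) := by
  have h : (-f : Fun) = algebraMap Kbar Fun (-1) * f := by
    ext τ
    simp
  rw [h]
  exact (isHol_algebraMap _).mul hf

theorem isHol_sub_a1 {f g : Fun} (hf : IsHol f) (hg : IsHol g) : IsHol (f - g) := by
  rw [sub_eq_add_neg]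
  exact hf.add (isHol_neg_a1 hg)

theorem isHol_pow_a1 {f : Fun} (hf : IsHol f) (n : ℕ) : IsHol (f ^ n) := by
  induction n with
  | zero =>
      have h : (f ^ 0 : Fun) = algebraMap Kbar Fun 1 := by
        ext τ
        simp
      rw [h]
      exact isHol_algebraMap _
  | succ n ih =>
      rw [pow_succ]
      exact ih.mul hf

theorem inv_of_bound (M : ℕ) [NeZero M] :
    ∀ (N : ℕ) (f : Fun), IsHol f → (∀ γ : SL(2, ℤ), γ • f = f) →
      ∀ a : LaurentSeries Kbar, HasExp M f a →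
      (∀ n : ℤ, n < -((M : ℤ) * N) → a.coeff n = 0) →
      ∃ P : Polynomial Kbar, Polynomial.aeval jFun P = f := by
  intro N
  induction N with
  | zero =>
      intro f hf hinv a ha h0
      refine ⟨Polynomial.C (a.coeff 0), ?_⟩
      rw [Polynomial.aeval_C]
      exact (eq_algebraMap_of_no_pole hinv hf ha (by simpa using h0)).symm
  | succ N ih =>
      intro f hf hinv a ha h0
      have hM : (0 : ℤ) < M := by exact_mod_cast Nat.pos_of_ne_zero (NeZero.ne M)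
      set c : Kbar := a.coeff (-((M : ℤ) * ((N + 1 : ℕ) : ℤ))) with hc
      set J : LaurentSeries Kbar := ModularCurve.qExpand Kbar M (ModularCurve.jqModC Kbar)
        with hJ
      have hJexp : HasExp M jFun J := hasExp_jFun M
      have hg_exp : HasExp M (f - algebraMap Kbar Fun c * jFun ^ (N + 1))
          (a - algebraMap Kbar (LaurentSeries Kbar) c * J ^ (N + 1)) :=
        ha.sub ((HasExp.algebraMap M c).mul (hasExp_pow hJexp (N + 1)))
      have hg_mem : IsHol (f - algebraMap Kbar Fun c * jFun ^ (N + 1)) :=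
        isHol_sub_a1 hf ((isHol_algebraMap c).mul (isHol_pow_a1 isHol_jFun _))
      have hg_inv : ∀ γ : SL(2, ℤ), γ • (f - algebraMap Kbar Fun c * jFun ^ (N + 1))
          = f - algebraMap Kbar Fun c * jFun ^ (N + 1) := by
        intro γ
        have h1 : γ • (algebraMap Kbar Fun c) = algebraMap Kbar Fun c := by
          ext τ; simp
        rw [smul_sub, smul_mul', smul_pow', hinv γ, jFun_smul γ, h1]
      have hT : ModularGroup.T • f = f := hinv _
      have hcoeff : ∀ n : ℤ, n < -((M : ℤ) * (N : ℤ)) →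
          (a - algebraMap Kbar (LaurentSeries Kbar) c * J ^ (N + 1)).coeff n = 0 := by
        intro n hn
        rw [HahnSeries.coeff_sub, coeff_algebraMap_mul]
        by_cases hdvd : (M : ℤ) ∣ n
        · obtain ⟨k, rfl⟩ := hdvd
          have hk : k < -(N : ℤ) := by
            have h1 : (M : ℤ) * k < (M : ℤ) * (-(N : ℤ)) := by rw [mul_neg]; exact hn
            exact lt_of_mul_lt_mul_left h1 hM.le
          rcases lt_or_eq_of_le (show k ≤ -((N + 1 : ℕ) : ℤ) by push_cast; omega) with hlt | heq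
          · have h2 : (M : ℤ) * k < -((M : ℤ) * ((N + 1 : ℕ) : ℤ)) := by
              rw [← mul_neg]; exact mul_lt_mul_of_pos_left hlt hM
            rw [h0 _ h2, coeff_qExpand_jqModC_pow_of_lt M (N + 1) h2, mul_zero, sub_zero]
          · subst heq
            rw [mul_neg, coeff_qExpand_jqModC_pow M (N + 1), mul_one, ← hc, sub_self]
        · rw [coeff_eq_zero_of_T_smul ha hT hdvd, zero_sub, neg_eq_zero]
          have : (J ^ (N + 1)).coeff n = 0 := by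
            rw [hJ, ← map_pow]
            exact ModularCurve.qExpand_coeff_of_not_dvd M _ hdvd
          rw [this, mul_zero]
      obtain ⟨P, hP⟩ := ih _ hg_mem hg_inv _ hg_exp hcoeff
      refine ⟨P + Polynomial.C c * Polynomial.X ^ (N + 1), ?_⟩
      rw [map_add, map_mul, Polynomial.aeval_C, map_pow, Polynomial.aeval_X, hP]
      exact sub_add_cancel _ _

/-- **(A1-INV)** -/
theorem invariant : InvariantStatement := by
  intro M _ f a hf hinv ha
  obtain ⟨m, p, hap, hp⟩ := id ha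
  refine inv_of_bound M m f hf hinv a ha ?_
  intro n hn
  rw [hap]
  refine coeff_eq_zero_of_lt_of_hasExp_aux m p (lt_of_lt_of_le hn ?_)
  have hM : (1 : ℤ) ≤ M := by exact_mod_cast Nat.pos_of_ne_zero (NeZero.ne M)
  have hm : (0 : ℤ) ≤ m := Int.natCast_nonneg m
  nlinarith

end Fermat.Agent.S48WA1
end
end MergeWrap_S48_W_A1_Inv

section MergeWrap_S48_W_G_Kron_Amb -- from S48/W/G/Kron/Amb.lean

set_option autoImplicit false

noncomputable section

namespace Fermat.Agent.S48WKron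

open UpperHalfPlane Fermat.Agent.S24
open scoped MatrixGroups Manifold

/-- membership condition of `AHb M`. -/
def IsAHb (M : ℕ) (f : Fun) : Prop :=
  IsHol f ∧ (∀ γ ∈ CongruenceSubgroup.Gamma M, γ • f = f) ∧
    ∀ γ : SL(2, ℤ), ∃ a : LaurentSeries Kbar, HasExp M (γ • f) a

theorem isAHb_algebraMap (M : ℕ) (c : Kbar) : IsAHb M (algebraMap Kbar Fun c) := by
  have h : ∀ γ : SL(2, ℤ), γ • (algebraMap Kbar Fun c) = algebraMap Kbar Fun c := by
    intro γ; ext τ; simp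
  refine ⟨isHol_algebraMap c, fun γ _ => h γ, fun γ => ?_⟩
  rw [h γ]
  exact ⟨_, HasExp.algebraMap M c⟩

theorem IsAHb.add {M : ℕ} [NeZero M] {f g : Fun} (hf : IsAHb M f) (hg : IsAHb M g) :
    IsAHb M (f + g) := by
  refine ⟨hf.1.add hg.1, fun γ hγ => by rw [smul_add, hf.2.1 γ hγ, hg.2.1 γ hγ], fun γ => ?_⟩
  obtain ⟨a, ha⟩ := hf.2.2 γ
  obtain ⟨b, hb⟩ := hg.2.2 γ
  rw [smul_add]
  exact ⟨a + b, ha.add hb⟩

theorem IsAHb.mul {M : ℕ} [NeZero M] {f g : Fun} (hf : IsAHb M f) (hg : IsAHb M g) :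
    IsAHb M (f * g) := by
  refine ⟨hf.1.mul hg.1, fun γ hγ => by rw [smul_mul', hf.2.1 γ hγ, hg.2.1 γ hγ], fun γ => ?_⟩
  obtain ⟨a, ha⟩ := hf.2.2 γ
  obtain ⟨b, hb⟩ := hg.2.2 γ
  rw [smul_mul']
  exact ⟨a * b, ha.mul hb⟩

theorem IsAHb.sl_smul {M : ℕ} {f : Fun} (hf : IsAHb M f) (g : SL(2, ℤ)) : IsAHb M (g • f) := by
  refine ⟨hf.1.sl_smul g, fun γ hγ => ?_, fun γ => ?_⟩
  · have hconj : g⁻¹ * γ * g ∈ CongruenceSubgroup.Gamma M := by
      have hn : (CongruenceSubgroup.Gamma M).Normal := CongruenceSubgroup.Gamma_normal M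
      have := hn.conj_mem γ hγ g⁻¹
      simpa using this
    calc γ • g • f = g • ((g⁻¹ * γ * g) • f) := by
          rw [← mul_smul, ← mul_smul]
          congr 1
          group
      _ = g • f := by rw [hf.2.1 _ hconj]
  · rw [← mul_smul]
    exact hf.2.2 (γ * g)

/-- **the ring of modular functions of level `M`, holomorphic on `ℍ`, with expansions over
`ℚ̄` at all cusps.** -/
def AHb (M : ℕ) [NeZero M] : Subalgebra Kbar Fun where
  carrier := {f | IsAHb M f}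
  mul_mem' := fun hf hg => IsAHb.mul hf hg
  add_mem' := fun hf hg => IsAHb.add hf hg
  algebraMap_mem' c := isAHb_algebraMap M c

theorem mem_AHb {M : ℕ} [NeZero M] {f : Fun} : f ∈ AHb M ↔ IsAHb M f := Iff.rfl

theorem isHol_of_mem_AHb {M : ℕ} [NeZero M] {f : Fun} (hf : f ∈ AHb M) : IsHol f := hf.1

theorem smul_eq_of_mem_AHb {M : ℕ} [NeZero M] {f : Fun} (hf : f ∈ AHb M) {γ : SL(2, ℤ)}
    (hγ : γ ∈ CongruenceSubgroup.Gamma M) : γ • f = f := hf.2.1 γ hγ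

theorem exists_hasExp_of_mem_AHb {M : ℕ} [NeZero M] {f : Fun} (hf : f ∈ AHb M) :
    ∃ a : LaurentSeries Kbar, HasExp M f a := by
  have := hf.2.2 1
  rwa [one_smul] at this

theorem smul_mem_AHb {M : ℕ} [NeZero M] (γ : SL(2, ℤ)) {f : Fun} (hf : f ∈ AHb M) :
    γ • f ∈ AHb M := IsAHb.sl_smul hf γ

/-- the ring `AL M` of S24 (generated by the `γ • j_d`, `d ∣ M`) is contained in `AHb M`. -/
theorem AL_le_AHb (M : ℕ) [NeZero M] : AL M ≤ AHb M := by
  intro f hf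
  refine ⟨isHol_of_mem_AL hf, fun γ hγ => ?_, fun γ =>
    EmbFHom.exists_hasExp_of_mem_AL M (smul_mem_AL M γ hf)⟩
  have h := Gamma_smul_eq M γ hγ (algebraMap (AL M) (LL M) ⟨f, hf⟩)
  rw [LL.smul_algebraMap] at h
  exact congrArg Subtype.val (IsFractionRing.injective (AL M) (LL M) h)

instance instMulSemiringActionAHb (M : ℕ) [NeZero M] : MulSemiringAction SL(2, ℤ) (AHb M) where
  smul γ f := ⟨γ • (f : Fun), smul_mem_AHb γ f.2⟩
  one_smul f := Subtype.ext (one_smul _ _)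
  mul_smul γ γ' f := Subtype.ext (mul_smul _ _ _)
  smul_zero γ := Subtype.ext (smul_zero _)
  smul_add γ f g := Subtype.ext (smul_add _ _ _)
  smul_one γ := Subtype.ext (smul_one _)
  smul_mul γ f g := Subtype.ext (smul_mul' _ _ _)

@[simp] theorem AHb.coe_smul (M : ℕ) [NeZero M] (γ : SL(2, ℤ)) (f : AHb M) :
    ((γ • f : AHb M) : Fun) = γ • (f : Fun) := rfl

instance instSMulCommClassAHb (M : ℕ) [NeZero M] : SMulCommClass SL(2, ℤ) Kbar (AHb M) where
  smul_comm γ a f := Subtype.ext (smul_comm γ a (f : Fun))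

instance instIsDomainAHb (M : ℕ) [NeZero M] : IsDomain (AHb M) := by
  have : Nontrivial (AHb M) := by
    refine ⟨⟨0, 1, fun h => ?_⟩⟩
    have h1 : ((0 : AHb M) : Fun) = ((1 : AHb M) : Fun) := congrArg Subtype.val h
    have h2 := congrFun h1 ⟨Complex.I, by simp⟩
    exact zero_ne_one h2
  have : NoZeroDivisors (AHb M) := by
    refine ⟨fun {a b} h => ?_⟩
    have h1 : (a : Fun) * (b : Fun) = 0 := congrArg Subtype.val h
    rcases (isHol_of_mem_AHb a.2).eq_zero_or_eq_zero_of_mul_eq_zero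
      (isHol_of_mem_AHb b.2) h1 with h2 | h2
    · exact Or.inl (Subtype.ext h2)
    · exact Or.inr (Subtype.ext h2)
  exact NoZeroDivisors.to_isDomain _

/-- **the field of modular functions of level `M` over `ℚ̄`.** -/
abbrev LHb (M : ℕ) [NeZero M] : Type := FractionRing (AHb M)

instance instMulSemiringActionLHb (M : ℕ) [NeZero M] : MulSemiringAction SL(2, ℤ) (LHb M) :=
  IsFractionRing.mulSemiringAction SL(2, ℤ) (AHb M) (LHb M)

theorem LHb.smul_algebraMap (M : ℕ) [NeZero M] (γ : SL(2, ℤ)) (f : AHb M) :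
    γ • (algebraMap (AHb M) (LHb M) f) = algebraMap (AHb M) (LHb M) (γ • f) := by
  have := (IsFractionRing.smulDistribClass SL(2, ℤ) (AHb M) (LHb M)).smul_distrib_smul γ f
    (1 : LHb M)
  simpa [Algebra.smul_def] using this

instance instSMulCommClassLHb (M : ℕ) [NeZero M] : SMulCommClass SL(2, ℤ) Kbar (LHb M) where
  smul_comm γ a x := by
    have h1 : γ • (algebraMap Kbar (LHb M) a) = algebraMap Kbar (LHb M) a := by
      rw [IsScalarTower.algebraMap_apply Kbar (AHb M) (LHb M), LHb.smul_algebraMap]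
      rfl
    rw [Algebra.smul_def, Algebra.smul_def, smul_mul', h1]

/-- an element of `LHb M` from a function. -/
def LHb.ofFun {M : ℕ} [NeZero M] (f : Fun) (hf : IsAHb M f) : LHb M :=
  algebraMap (AHb M) (LHb M) ⟨f, hf⟩

theorem LHb.ofFun_injective {M : ℕ} [NeZero M] {f g : Fun} (hf : IsAHb M f) (hg : IsAHb M g)
    (h : LHb.ofFun f hf = LHb.ofFun g hg) : f = g :=
  congrArg Subtype.val (IsFractionRing.injective (AHb M) (LHb M) h)

theorem LHb.smul_ofFun {M : ℕ} [NeZero M] (γ : SL(2, ℤ)) (f : Fun) (hf : IsAHb M f) :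
    γ • LHb.ofFun f hf = LHb.ofFun (γ • f) (hf.sl_smul γ) :=
  LHb.smul_algebraMap M γ ⟨f, hf⟩

theorem LHb.ofFun_mul {M : ℕ} [NeZero M] (f g : Fun) (hf : IsAHb M f) (hg : IsAHb M g) :
    LHb.ofFun (f * g) (hf.mul hg) = LHb.ofFun f hf * LHb.ofFun g hg :=
  map_mul (algebraMap (AHb M) (LHb M)) ⟨f, hf⟩ ⟨g, hg⟩

theorem LHb.ofFun_add {M : ℕ} [NeZero M] (f g : Fun) (hf : IsAHb M f) (hg : IsAHb M g) :
    LHb.ofFun (f + g) (hf.add hg) = LHb.ofFun f hf + LHb.ofFun g hg :=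
  map_add (algebraMap (AHb M) (LHb M)) ⟨f, hf⟩ ⟨g, hg⟩

/-- `Γ(M)` acts trivially on `LHb M`. -/
theorem Gamma_smul_eq_LHb (M : ℕ) [NeZero M] (γ : SL(2, ℤ))
    (hγ : γ ∈ CongruenceSubgroup.Gamma M) (x : LHb M) : γ • x = x := by
  have hAH : ∀ f : AHb M, γ • f = f := fun f => Subtype.ext (smul_eq_of_mem_AHb f.2 hγ)
  obtain ⟨a, b, -, rfl⟩ := IsFractionRing.div_surjective (A := AHb M) x
  rw [div_eq_mul_inv, smul_mul', smul_inv'', LHb.smul_algebraMap, LHb.smul_algebraMap, hAH a,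
    hAH b]

theorem exists_finiteIndex_fixing_LHb (M : ℕ) [NeZero M] :
    ∃ Γ' : Subgroup SL(2, ℤ), Γ'.FiniteIndex ∧ ∀ g ∈ Γ', ∀ x : LHb M, g • x = x :=
  ⟨CongruenceSubgroup.Gamma M, inferInstance, fun g hg x => Gamma_smul_eq_LHb M g hg x⟩

/-- the inclusion `AL M → AHb M`. -/
def inclAHb (M : ℕ) [NeZero M] : AL M →ₐ[Kbar] AHb M := Subalgebra.inclusion (AL_le_AHb M)

/-- `j` as an element of `AHb M`. -/
def jAHb (M : ℕ) [NeZero M] : AHb M := inclAHb M (jAL M)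

@[simp] theorem coe_jAHb (M : ℕ) [NeZero M] : ((jAHb M : AHb M) : Fun) = jFun := rfl

/-- `j` as an element of `LHb M`. -/
def jLHb (M : ℕ) [NeZero M] : LHb M := algebraMap (AHb M) (LHb M) (jAHb M)

theorem smul_jAHb (M : ℕ) [NeZero M] (g : SL(2, ℤ)) : g • jAHb M = jAHb M := by
  apply Subtype.ext
  exact jFun_smul g

theorem smul_jLHb (M : ℕ) [NeZero M] (g : SL(2, ℤ)) : g • jLHb M = jLHb M := by
  rw [jLHb, LHb.smul_algebraMap, smul_jAHb]

/-- `j_d` (`d ∣ M`) as an element of `LHb M`. -/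
def jdLHb (M d : ℕ) [NeZero M] [NeZero d] (hd : d ∣ M) : LHb M :=
  algebraMap (AHb M) (LHb M) (inclAHb M (EmbFHom.jdAL M d hd))

/-! ### the expansion at `∞` -/

/-- the expansion at `∞` of an element of `AHb M`. -/
def expFunAHb (M : ℕ) [NeZero M] (f : AHb M) : LaurentSeries Kbar :=
  (exists_hasExp_of_mem_AHb f.2).choose

theorem hasExp_expFunAHb (M : ℕ) [NeZero M] (f : AHb M) :
    HasExp M (f : Fun) (expFunAHb M f) :=
  (exists_hasExp_of_mem_AHb f.2).choose_spec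

theorem expFunAHb_eq (M : ℕ) [NeZero M] (f : AHb M) {a : LaurentSeries Kbar}
    (h : HasExp M (f : Fun) a) : expFunAHb M f = a :=
  (hasExp_expFunAHb M f).unique h

/-- the expansion at `∞` (in `u = exp(2πiτ/M)`) on `AHb M`. -/
def expAHb (M : ℕ) [NeZero M] : AHb M →ₐ[Kbar] LaurentSeries Kbar where
  toFun := expFunAHb M
  map_one' := by
    apply expFunAHb_eq
    have h := HasExp.algebraMap M (1 : Kbar)
    rwa [map_one, map_one] at h
  map_mul' f g := expFunAHb_eq M _ ((hasExp_expFunAHb M f).mul (hasExp_expFunAHb M g))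
  map_zero' := by
    apply expFunAHb_eq
    have h := HasExp.algebraMap M (0 : Kbar)
    rwa [map_zero, map_zero] at h
  map_add' f g := expFunAHb_eq M _ ((hasExp_expFunAHb M f).add (hasExp_expFunAHb M g))
  commutes' c := expFunAHb_eq M _ (HasExp.algebraMap M c)

theorem hasExp_expAHb {M : ℕ} [NeZero M] (f : AHb M) : HasExp M (f : Fun) (expAHb M f) :=
  hasExp_expFunAHb M f

theorem expAHb_eq {M : ℕ} [NeZero M] {f : AHb M} {a : LaurentSeries Kbar}
    (h : HasExp M (f : Fun) a) : expAHb M f = a :=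
  (hasExp_expAHb f).unique h

theorem expAHb_injective (M : ℕ) [NeZero M] : Function.Injective (expAHb M) := by
  intro f g h
  apply Subtype.ext
  have hf := hasExp_expAHb f
  have hg := hasExp_expAHb g
  rw [h] at hf
  exact hf.fun_unique hg

/-- the expansion at `∞` on the field `LHb M`. -/
def expLHb (M : ℕ) [NeZero M] : LHb M →ₐ[Kbar] LaurentSeries Kbar :=
  IsFractionRing.liftAlgHom (expAHb_injective M)

theorem expLHb_algebraMap (M : ℕ) [NeZero M] (f : AHb M) :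
    expLHb M (algebraMap (AHb M) (LHb M) f) = expAHb M f := by
  unfold expLHb
  rw [IsFractionRing.liftAlgHom_apply]
  exact IsFractionRing.lift_algebraMap _ _

theorem expLHb_injective (M : ℕ) [NeZero M] : Function.Injective (expLHb M) :=
  (expLHb M).toRingHom.injective

theorem expLHb_ofFun {M : ℕ} [NeZero M] (f : Fun) (hf : IsAHb M f) {a : LaurentSeries Kbar}
    (h : HasExp M f a) : expLHb M (LHb.ofFun f hf) = a := by
  unfold LHb.ofFun
  rw [expLHb_algebraMap]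
  exact expAHb_eq h

theorem expLHb_jdLHb (M d : ℕ) [NeZero M] [NeZero d] (hd : d ∣ M) :
    expLHb M (jdLHb M d hd) = ModularCurve.qExpand Kbar (M * d) (ModularCurve.jqModC Kbar) := by
  unfold jdLHb
  rw [expLHb_algebraMap]
  have h1 := EmbFHom.expLL_jdLL M d hd
  have h2 : HasExp M ((EmbFHom.jdAL M d hd : AL M) : Fun)
      (EmbFHom.expLL M (EmbFHom.jdLL M d hd)) := by
    unfold EmbFHom.jdLL
    rw [EmbFHom.expLL_algebraMap]
    exact EmbFHom.hasExp_expAL M _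
  rw [h1] at h2
  exact expAHb_eq h2

theorem jdLHb_one (M : ℕ) [NeZero M] : jdLHb M 1 (one_dvd M) = jLHb M := by
  unfold jdLHb jLHb jAHb
  rw [EmbFHom.jdAL_one]

/-- the expansion of a translate. -/
theorem expLHb_T_smul_ofFun {M : ℕ} [NeZero M] (f : Fun) (hf : IsAHb M f)
    {a : LaurentSeries Kbar} (h : HasExp M (ModularGroup.T • f) a) :
    expLHb M (ModularGroup.T • LHb.ofFun f hf) = a := by
  rw [LHb.smul_ofFun]
  exact expLHb_ofFun _ _ h

/-! ### the invariants -/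

/-- an `SL(2,ℤ)`-invariant element of `AHb M` is a polynomial in `j` (hub A1). -/
theorem exists_aeval_jAHb_of_invariant (M : ℕ) [NeZero M] (f : AHb M)
    (hf : ∀ γ : SL(2, ℤ), γ • f = f) :
    ∃ P : Polynomial Kbar, Polynomial.aeval (jAHb M) P = f := by
  obtain ⟨a, ha⟩ := exists_hasExp_of_mem_AHb f.2
  obtain ⟨P, hP⟩ := Fermat.Agent.S48WA1.invariant M (f : Fun) a (isHol_of_mem_AHb f.2)
    (fun γ => congrArg Subtype.val (hf γ)) ha
  refine ⟨P, Subtype.ext ?_⟩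
  rw [← hP]
  have h1 : ((Polynomial.aeval (jAHb M) P : AHb M) : Fun)
      = Polynomial.aeval ((jAHb M : AHb M) : Fun) P := by
    have := Polynomial.aeval_algHom_apply (AHb M).val (jAHb M) P
    exact this.symm
  rw [h1, coe_jAHb]

/-- The orbit of an element of `AHb M` is finite. -/
theorem finite_orbit_AHb {M : ℕ} [NeZero M] (b : AHb M) :
    (MulAction.orbit SL(2, ℤ) b).Finite := by
  have hle : CongruenceSubgroup.Gamma M ≤ MulAction.stabilizer SL(2, ℤ) b := by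
    intro γ hγ
    exact Subtype.ext (smul_eq_of_mem_AHb b.2 hγ)
  have : (MulAction.stabilizer SL(2, ℤ) b).FiniteIndex := Subgroup.finiteIndex_of_le hle
  have : Finite (SL(2, ℤ) ⧸ MulAction.stabilizer SL(2, ℤ) b) :=
    Subgroup.finite_quotient_of_finiteIndex
  have e := MulAction.orbitEquivQuotientStabilizer SL(2, ℤ) b
  have : Finite (MulAction.orbit SL(2, ℤ) b) := Finite.of_equiv _ e.symm
  exact Set.toFinite _

/-- **the invariants of `LHb M` are `ℚ̄(j)`.** -/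
theorem mem_adjoin_jLHb_of_invariant (M : ℕ) [NeZero M] (x : LHb M)
    (hx : ∀ γ : SL(2, ℤ), γ • x = x) :
    x ∈ IntermediateField.adjoin Kbar {jLHb M} := by
  classical
  obtain ⟨a, b, hb, rfl⟩ := IsFractionRing.div_surjective (A := AHb M) x
  have hb0 : b ≠ 0 := nonZeroDivisors.ne_zero hb
  -- the orbit of the denominator
  have hfin := finite_orbit_AHb b
  set O : Finset (AHb M) := hfin.toFinset with hO
  have hmemO : ∀ y : AHb M, y ∈ O ↔ ∃ g : SL(2, ℤ), g • b = y := by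
    intro y
    rw [hO, Set.Finite.mem_toFinset]
    exact MulAction.mem_orbit_iff
  have hbO : b ∈ O := (hmemO b).mpr ⟨1, one_smul _ b⟩
  -- the norm and the cofactor
  set Nm : AHb M := ∏ y ∈ O, y with hNm
  set c : AHb M := ∏ y ∈ O.erase b, y with hc
  have hNmc : Nm = b * c := by
    rw [hNm, hc, Finset.mul_prod_erase O (fun y => y) hbO]
  have hNm_inv : ∀ γ : SL(2, ℤ), γ • Nm = Nm := by
    intro γ
    rw [hNm, Finset.smul_prod']
    refine Finset.prod_nbij (fun y => γ • y) ?_ ?_ ?_ ?_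
    · intro y hy
      obtain ⟨g, rfl⟩ := (hmemO y).mp hy
      exact (hmemO _).mpr ⟨γ * g, mul_smul γ g b⟩
    · intro y _ z _ hyz
      exact MulAction.injective γ hyz
    · intro z hz
      obtain ⟨g, rfl⟩ := (hmemO z).mp hz
      refine ⟨(γ⁻¹ * g) • b, ?_, ?_⟩
      · exact (hmemO _).mpr ⟨γ⁻¹ * g, rfl⟩
      · show γ • (γ⁻¹ * g) • b = g • b
        rw [← mul_smul, mul_inv_cancel_left]
    · intro y _
      rfl
  have hNm0 : Nm ≠ 0 := by
    rw [hNm, Finset.prod_ne_zero_iff]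
    intro y hy
    obtain ⟨g, rfl⟩ := (hmemO y).mp hy
    exact (smul_ne_zero_iff_ne g).mpr hb0
  -- the numerator `a * c` is invariant
  have hinj := IsFractionRing.injective (AHb M) (LHb M)
  have hne : ∀ z : AHb M, z ≠ 0 → algebraMap (AHb M) (LHb M) z ≠ 0 := fun z hz h =>
    hz (hinj (h.trans (map_zero _).symm))
  have hc0 : c ≠ 0 := by
    intro h0
    apply hNm0
    rw [hNmc, h0, mul_zero]
  have hxeq : algebraMap (AHb M) (LHb M) a / algebraMap (AHb M) (LHb M) b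
      = algebraMap (AHb M) (LHb M) (a * c) / algebraMap (AHb M) (LHb M) Nm := by
    rw [hNmc, map_mul, map_mul, mul_div_mul_right _ _ (hne c hc0)]
  have hNm' : algebraMap (AHb M) (LHb M) Nm ≠ 0 := hne Nm hNm0
  have hac_inv : ∀ γ : SL(2, ℤ), γ • (a * c) = a * c := by
    intro γ
    apply hinj
    rw [← LHb.smul_algebraMap]
    have h1 : algebraMap (AHb M) (LHb M) (a * c)
        = (algebraMap (AHb M) (LHb M) a / algebraMap (AHb M) (LHb M) b)
          * algebraMap (AHb M) (LHb M) Nm := by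
      rw [hxeq, div_mul_cancel₀ _ hNm']
    rw [h1, smul_mul', hx γ, LHb.smul_algebraMap, hNm_inv γ]
  obtain ⟨P, hP⟩ := exists_aeval_jAHb_of_invariant M (a * c) hac_inv
  obtain ⟨Q, hQ⟩ := exists_aeval_jAHb_of_invariant M Nm hNm_inv
  rw [hxeq, IntermediateField.mem_adjoin_simple_iff]
  refine ⟨P, Q, ?_⟩
  have hj : ∀ R : Polynomial Kbar, Polynomial.aeval (jLHb M) R
      = algebraMap (AHb M) (LHb M) (Polynomial.aeval (jAHb M) R) := by
    intro R
    rw [jLHb, ← Polynomial.aeval_algebraMap_apply]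
  rw [hj, hj, hP, hQ]

end Fermat.Agent.S48WKron
end
end MergeWrap_S48_W_G_Kron_Amb

section MergeWrap_S48_W_G_Kron_Scale -- from S48/W/G/Kron/Scale.lean

set_option autoImplicit false

noncomputable section

namespace Fermat.Agent.S48WKron

open UpperHalfPlane Fermat.Agent.S24 Fermat.Agent.S24.GensExp
open scoped MatrixGroups Manifold

/-- `HasExp` depends only on the values of the function. -/
theorem hasExp_congr_fun {M : ℕ} {f g : Fun} {a : LaurentSeries Kbar}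
    (h : HasExp M f a) (e : ∀ τ : ℍ, g τ = f τ) : HasExp M g a := by
  have : g = f := funext e
  rw [this]
  exact h

/-! ### substitution `u ↦ z u^k` -/

/-- the series `∑ pₙ zⁿ X^(k n)`. -/
def substPS (z : Kbar) (k : ℕ) (P : PowerSeries Kbar) : PowerSeries Kbar :=
  PowerSeries.mk fun n => if k ∣ n then z ^ (n / k) * PowerSeries.coeff (n / k) P else 0

theorem coeff_substPS (z : Kbar) (k : ℕ) (P : PowerSeries Kbar) (n : ℕ) :
    PowerSeries.coeff n (substPS z k P)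
      = if k ∣ n then z ^ (n / k) * PowerSeries.coeff (n / k) P else 0 := by
  rw [substPS, PowerSeries.coeff_mk]

theorem coeff_substPS_mul (z : Kbar) (k : ℕ) (hk : 0 < k) (P : PowerSeries Kbar) (n : ℕ) :
    PowerSeries.coeff (k * n) (substPS z k P) = z ^ n * PowerSeries.coeff n P := by
  rw [coeff_substPS, if_pos (dvd_mul_right k n), Nat.mul_div_cancel_left n hk]

theorem coeff_substPS_of_not_dvd (z : Kbar) (k : ℕ) (P : PowerSeries Kbar) {n : ℕ}
    (h : ¬ k ∣ n) : PowerSeries.coeff n (substPS z k P) = 0 := by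
  rw [coeff_substPS, if_neg h]

/-- Substitution `u_{M₀} ∘ φ = z u_M^k` in a power series expansion. -/
theorem hasPExp_substPS {M₀ M : ℕ} {G : Fun} {P : PowerSeries Kbar} (hG : HasPExp M₀ G P)
    (φ : ℍ → ℍ) (z : Kbar) (hz : ‖iota z‖ = 1) (k : ℕ) (hk : 0 < k)
    (hφ : ∀ τ, uParam M₀ (φ τ) = iota z * uParam M τ ^ k) :
    HasPExp M (fun τ => G (φ τ)) (substPS z k P) := by
  intro τ
  obtain ⟨hS, hH⟩ := hG (φ τ)
  have hinj : Function.Injective (fun n : ℕ => k * n) := fun a b h =>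
    Nat.eq_of_mul_eq_mul_left hk h
  have hrange : ∀ m : ℕ, m ∉ Set.range (fun n : ℕ => k * n) → ¬ k ∣ m := by
    intro m hm hdvd
    obtain ⟨n, rfl⟩ := hdvd
    exact hm ⟨n, rfl⟩
  have hnorm : ‖uParam M₀ (φ τ)‖ = ‖uParam M τ‖ ^ k := by
    rw [hφ τ, norm_mul, hz, one_mul, norm_pow]
  constructor
  · rw [← hinj.summable_iff]
    · refine hS.congr fun n => ?_
      simp only [Function.comp_apply]
      rw [coeff_substPS_mul z k hk, map_mul, map_pow, norm_mul, norm_pow, hz, one_pow, one_mul,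
        hnorm, pow_mul]
    · intro m hm
      rw [coeff_substPS_of_not_dvd z k P (hrange m hm), map_zero, norm_zero, zero_mul]
  · rw [← hinj.hasSum_iff]
    · have e2 : ((fun m => iota (PowerSeries.coeff m (substPS z k P)) * uParam M τ ^ m) ∘
            fun n : ℕ => k * n)
          = fun n => iota (PowerSeries.coeff n P) * uParam M₀ (φ τ) ^ n := by
        funext n
        simp only [Function.comp_apply]
        rw [coeff_substPS_mul z k hk, map_mul, map_pow, hφ τ, mul_pow, pow_mul]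
        ring
      rw [e2]
      exact hH
    · intro m hm
      rw [coeff_substPS_of_not_dvd z k P (hrange m hm), map_zero, zero_mul]

/-- Substitution `u_{M₀} ∘ φ = z u_M^k` in a Laurent expansion. -/
theorem hasExp_comp_of_uParam {M₀ M : ℕ} {g : Fun} {A : LaurentSeries Kbar}
    (hg : HasExp M₀ g A) (φ : ℍ → ℍ) (z : Kbar) (hz : ‖iota z‖ = 1) (k : ℕ) (hk : 0 < k)
    (hφ : ∀ τ, uParam M₀ (φ τ) = iota z * uParam M τ ^ k) :
    ∃ B : LaurentSeries Kbar, HasExp M (fun τ => g (φ τ)) B := by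
  obtain ⟨μ, P, -, hP⟩ := hg
  have h1 := hasPExp_substPS hP φ z hz k hk hφ
  have hz0 : iota z ≠ 0 := by
    intro h
    rw [h, norm_zero] at hz
    exact zero_ne_one hz
  have h2 := (HasPExp.const M (z⁻¹ ^ μ)).mul h1
  refine ⟨_, k * μ, _, rfl, HasExp.pexp_congr h2 fun τ => ?_⟩
  show g (φ τ) * uParam M τ ^ (k * μ)
    = iota (z⁻¹ ^ μ) * (g (φ τ) * uParam M₀ (φ τ) ^ μ)
  rw [hφ τ, mul_pow, map_pow, map_inv₀, pow_mul]
  have hinv : (iota z)⁻¹ ^ μ * iota z ^ μ = 1 := by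
    rw [← mul_pow, inv_mul_cancel₀ hz0, one_pow]
  linear_combination (-(g (φ τ) * (uParam M τ ^ k) ^ μ)) * hinv

/-- `u_m((aτ + b)/e) = ζ · u_{m a e}(τ)^(a a)`, `ζ = e(b/(e m))`. -/
theorem uParam_aff_mul (m a e : ℕ) (b : ℤ) (ha : 0 < a) (he : 0 < e) (hm : 0 < m) (τ : ℍ) :
    uParam m (aff a e b ha he τ)
      = Complex.exp (2 * Real.pi * Complex.I * (b : ℂ) / ((e * m : ℕ) : ℂ))
        * uParam (m * (a * e)) τ ^ (a * a) := by
  have he' : (e : ℂ) ≠ 0 := by exact_mod_cast he.ne'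
  have hm' : (m : ℂ) ≠ 0 := by exact_mod_cast hm.ne'
  have ha' : (a : ℂ) ≠ 0 := by exact_mod_cast ha.ne'
  unfold uParam Function.Periodic.qParam
  rw [← Complex.exp_nat_mul, ← Complex.exp_add]
  congr 1
  rw [coe_aff]
  push_cast
  field_simp
  ring

/-- composition with `τ ↦ (aτ + b)/e` preserves the existence of expansions. -/
theorem exists_hasExp_comp_aff {m : ℕ} [NeZero m] {g : Fun} {A : LaurentSeries Kbar}
    (hg : HasExp m g A) (a e : ℕ) (b : ℤ) (ha : 0 < a) (he : 0 < e) :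
    ∃ B : LaurentSeries Kbar, HasExp (m * (a * e)) (fun τ => g (aff a e b ha he τ)) B := by
  have hm : 0 < m := Nat.pos_of_ne_zero (NeZero.ne m)
  have hem : 0 < e * m := Nat.mul_pos he hm
  obtain ⟨z, hz⟩ := exists_iota_eq_of_pow_eq_one hem (exp_two_pi_I_mul_div_pow b (e * m) hem)
  have hz1 : ‖iota z‖ = 1 := by rw [hz]; exact norm_exp_two_pi_I_mul_div b (e * m)
  refine hasExp_comp_of_uParam hg (aff a e b ha he) z hz1 (a * a) (Nat.mul_pos ha ha) fun τ => ?_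
  rw [uParam_aff_mul m a e b ha he hm, hz]

/-! ### change of level -/

theorem Gamma_le_Gamma_of_dvd {m m' : ℕ} (h : m ∣ m') :
    CongruenceSubgroup.Gamma m' ≤ CongruenceSubgroup.Gamma m := by
  intro γ hγ
  rw [CongruenceSubgroup.Gamma_mem] at hγ ⊢
  have key : ∀ x c : ℤ, ((x : ℤ) : ZMod m') = (c : ZMod m') → ((x : ℤ) : ZMod m) = (c : ZMod m) := by
    intro x c hxc
    have := congrArg (ZMod.castHom h (ZMod m)) hxc
    simpa using this
  obtain ⟨h1, h2, h3, h4⟩ := hγ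
  refine ⟨?_, ?_, ?_, ?_⟩
  · simpa using key (γ 0 0) 1 (by simpa using h1)
  · simpa using key (γ 0 1) 0 (by simpa using h2)
  · simpa using key (γ 1 0) 0 (by simpa using h3)
  · simpa using key (γ 1 1) 1 (by simpa using h4)

/-- **change of level**: a function of level `m` is of level `m'` for `m ∣ m'`. -/
theorem IsAHb.mono {m m' : ℕ} [NeZero m] [NeZero m'] (h : m ∣ m') {f : Fun} (hf : IsAHb m f) :
    IsAHb m' f := by
  refine ⟨hf.1, fun γ hγ => hf.2.1 γ (Gamma_le_Gamma_of_dvd h hγ), fun γ => ?_⟩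
  obtain ⟨k, rfl⟩ := h
  have hk : k ≠ 0 := by
    rintro rfl
    exact NeZero.ne (m * 0) (mul_zero m)
  haveI : NeZero k := ⟨hk⟩
  obtain ⟨a, ha⟩ := hf.2.2 γ
  exact ⟨_, ha.qExpand k⟩

/-! ### composition with `τ ↦ d τ` -/

/-- the conjugate `diag(d,1) g diag(d,1)⁻¹` of `g = [α β; d c' δ]`. -/
def scaleConj (d : ℕ) (g : SL(2, ℤ)) (c' : ℤ) (hc : g 1 0 = d * c') : SL(2, ℤ) :=
  ⟨!![g 0 0, d * g 0 1; c', g 1 1], by
    rw [Matrix.det_fin_two_of]
    have := sl2_det g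
    rw [hc] at this
    linear_combination this⟩

theorem scale_smul_eq (d : ℕ) [NeZero d] (g : SL(2, ℤ)) (c' : ℤ) (hc : g 1 0 = d * c') (τ : ℍ) :
    scale d (g • τ) = scaleConj d g c' hc • scale d τ := by
  apply UpperHalfPlane.ext
  have hd : (d : ℂ) ≠ 0 := by exact_mod_cast NeZero.ne d
  have h1 := sl2_denom_ne_zero g τ
  have h2 := sl2_denom_ne_zero (scaleConj d g c' hc) (scale d τ)
  rw [coe_scale, coe_sl2_smul, coe_sl2_smul, coe_scale]
  have e00 : (scaleConj d g c' hc) 0 0 = g 0 0 := rfl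
  have e01 : (scaleConj d g c' hc) 0 1 = d * g 0 1 := rfl
  have e10 : (scaleConj d g c' hc) 1 0 = c' := rfl
  have e11 : (scaleConj d g c' hc) 1 1 = g 1 1 := rfl
  rw [e10, e11, coe_scale] at h2
  rw [e00, e01, e10, e11]
  have hc' : ((g 1 0 : ℤ) : ℂ) = (d : ℂ) * (c' : ℂ) := by rw [hc]; push_cast; ring
  rw [hc'] at h1 ⊢
  have h3 : (c' : ℂ) * ((d : ℂ) * (τ : ℂ)) + ((g 1 1 : ℤ) : ℂ)
      = (d : ℂ) * (c' : ℂ) * (τ : ℂ) + ((g 1 1 : ℤ) : ℂ) := by ring
  rw [h3] at h2 ⊢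
  push_cast
  field_simp

theorem scaleConj_mem_Gamma {m d : ℕ} [NeZero d] {g : SL(2, ℤ)}
    (hg : g ∈ CongruenceSubgroup.Gamma (m * d)) (c' : ℤ) (hc : g 1 0 = d * c') :
    scaleConj d g c' hc ∈ CongruenceSubgroup.Gamma m := by
  rw [CongruenceSubgroup.Gamma_mem] at hg ⊢
  obtain ⟨h1, h2, h3, h4⟩ := hg
  have hdvd : ∀ x : ℤ, ((x : ℤ) : ZMod (m * d)) = 0 → ((m * d : ℕ) : ℤ) ∣ x := fun x hx =>
    (ZMod.intCast_zmod_eq_zero_iff_dvd x (m * d)).mp hx
  have hm : ∀ x : ℤ, ((m : ℕ) : ℤ) ∣ x → ((x : ℤ) : ZMod m) = 0 := fun x hx =>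
    (ZMod.intCast_zmod_eq_zero_iff_dvd x m).mpr hx
  have e00 : (scaleConj d g c' hc) 0 0 = g 0 0 := rfl
  have e01 : (scaleConj d g c' hc) 0 1 = d * g 0 1 := rfl
  have e10 : (scaleConj d g c' hc) 1 0 = c' := rfl
  have e11 : (scaleConj d g c' hc) 1 1 = g 1 1 := rfl
  have hd0 : (d : ℤ) ≠ 0 := by exact_mod_cast NeZero.ne d
  have k1 : ((m : ℕ) : ℤ) ∣ g 0 0 - 1 := by
    have : ((g 0 0 - 1 : ℤ) : ZMod (m * d)) = 0 := by push_cast; rw [h1]; ring
    exact (Dvd.intro _ (by push_cast; rfl)).trans (hdvd _ this)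
  have k4 : ((m : ℕ) : ℤ) ∣ g 1 1 - 1 := by
    have : ((g 1 1 - 1 : ℤ) : ZMod (m * d)) = 0 := by push_cast; rw [h4]; ring
    exact (Dvd.intro _ (by push_cast; rfl)).trans (hdvd _ this)
  have k2 : ((m : ℕ) : ℤ) ∣ d * g 0 1 := by
    have := hdvd _ h2
    exact Dvd.dvd.mul_left ((Dvd.intro _ (by push_cast; rfl)).trans this) _
  have k3 : ((m : ℕ) : ℤ) ∣ c' := by
    have := hdvd _ h3
    rw [hc] at this
    push_cast at this
    rw [mul_comm (m : ℤ) (d : ℤ)] at this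
    exact (mul_dvd_mul_iff_left hd0).mp this
  rw [e00, e01, e10, e11]
  refine ⟨?_, hm _ k2, hm _ k3, ?_⟩
  · have := hm _ k1
    push_cast at this
    exact sub_eq_zero.mp this
  · have := hm _ k4
    push_cast at this
    exact sub_eq_zero.mp this

/-- **composition with `τ ↦ d τ`**: a function of level `m` becomes a function of level
`m * d`. -/
theorem IsAHb.comp_scale {m : ℕ} [NeZero m] (d : ℕ) [NeZero d] {f : Fun} (hf : IsAHb m f) :
    IsAHb (m * d) (fun τ => f (scale d τ)) := by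
  have hd : 0 < d := Nat.pos_of_ne_zero (NeZero.ne d)
  refine ⟨?_, fun γ hγ => ?_, fun γ => ?_⟩
  · exact (MDifferentiable.comp hf.1 (mdifferentiable_scale d) :
      MDifferentiable 𝓘(ℂ) 𝓘(ℂ) ((f : ℍ → ℂ) ∘ scale d))
  · -- invariance under `Γ(m d)`
    have hγ' : γ⁻¹ ∈ CongruenceSubgroup.Gamma (m * d) := inv_mem hγ
    have h3 : (((γ⁻¹ : SL(2, ℤ)) 1 0 : ℤ) : ZMod (m * d)) = 0 :=
      ((CongruenceSubgroup.Gamma_mem).mp hγ').2.2.1
    have h4 : ((m * d : ℕ) : ℤ) ∣ (γ⁻¹ : SL(2, ℤ)) 1 0 :=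
      (ZMod.intCast_zmod_eq_zero_iff_dvd _ (m * d)).mp h3
    obtain ⟨c', hc'⟩ : ((d : ℕ) : ℤ) ∣ (γ⁻¹ : SL(2, ℤ)) 1 0 :=
      (Dvd.intro_left _ (by push_cast; rfl)).trans h4
    ext τ
    show f (scale d (γ⁻¹ • τ)) = f (scale d τ)
    rw [scale_smul_eq d γ⁻¹ c' hc']
    have h5 := scaleConj_mem_Gamma hγ' c' hc'
    have h6 := hf.2.1 _ (inv_mem h5)
    have h7 := congrFun h6 (scale d τ)
    rw [Fun.sl_smul_apply, inv_inv] at h7
    exact h7
  · -- expansions of the translates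
    obtain ⟨γ', a, e, b, ha, he, hae, hτ⟩ := exists_hermite d γ⁻¹
    obtain ⟨A, hA⟩ := hf.2.2 γ'⁻¹
    obtain ⟨B, hB⟩ := exists_hasExp_comp_aff hA a e b ha he
    rw [hae] at hB
    refine ⟨B, ?_⟩
    refine hasExp_congr_fun hB fun τ => ?_
    show f (scale d (γ⁻¹ • τ)) = f ((γ'⁻¹)⁻¹ • aff a e b ha he τ)
    rw [hτ τ, inv_inv]

end Fermat.Agent.S48WKron
end
end MergeWrap_S48_W_G_Kron_Scale

section MergeWrap_S36_Ig_EpsTwist -- from S36/Ig/EpsTwist.lean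

set_option autoImplicit false

noncomputable section

namespace Fermat.Agent.S36Ig

open ModularCurve UpperHalfPlane Fermat.Agent.S24 Fermat.Agent.S24.GensExp
  Fermat.Agent.Kronecker Fermat.Agent.S48WKron
open scoped MatrixGroups

/-- `(Σ pₙ qⁿ)(z u^k) = Σ pₙ zⁿ u^{kn}`. -/
theorem epsTw_ofPowerSeries (z : Kbarˣ) (k : ℕ) [NeZero k] (P : PowerSeries Kbar) :
    qExpand Kbar k (scaleL z (HahnSeries.ofPowerSeries ℤ Kbar P)) =
      HahnSeries.ofPowerSeries ℤ Kbar (substPS (z : Kbar) k P) := by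
  have hk0 : (0 : ℤ) < k := by exact_mod_cast Nat.pos_of_ne_zero (NeZero.ne k)
  ext n
  by_cases hn : n < 0
  · rw [ModularCurve.ofPowerSeries_coeff_of_neg _ hn]
    by_cases hk : (k : ℤ) ∣ n
    · obtain ⟨j, rfl⟩ := hk
      rw [qExpand_coeff_mul, scaleL_coeff]
      have hj : j < 0 := by
        by_contra hj
        rw [not_lt] at hj
        have := mul_nonneg hk0.le hj
        omega
      rw [ModularCurve.ofPowerSeries_coeff_of_neg _ hj, mul_zero]
    · exact qExpand_coeff_of_not_dvd k _ hk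
  · rw [not_lt] at hn
    obtain ⟨n', rfl⟩ := Int.eq_ofNat_of_zero_le hn
    rw [HahnSeries.ofPowerSeries_apply_coeff, coeff_substPS]
    by_cases hk : k ∣ n'
    · obtain ⟨j, rfl⟩ := hk
      rw [if_pos (dvd_mul_right k j),
        Nat.mul_div_cancel_left j (Nat.pos_of_ne_zero (NeZero.ne k))]
      have : ((k * j : ℕ) : ℤ) = (k : ℤ) * (j : ℤ) := by push_cast; ring
      rw [this, qExpand_coeff_mul, scaleL_coeff, HahnSeries.ofPowerSeries_apply_coeff,
        zpow_natCast, Units.val_pow_eq_pow_val]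
    · rw [if_neg hk]
      refine qExpand_coeff_of_not_dvd k _ ?_
      intro h
      exact hk (by exact_mod_cast h)

/-- `scaleL z (q^{-μ} P) (u^k) = u^{-kμ} · z^{-μ} · Σ pₙ zⁿ u^{kn}`. -/
theorem epsTw_series (z : Kbarˣ) (k : ℕ) [NeZero k] (μ : ℕ) (P : PowerSeries Kbar) :
    qExpand Kbar k (scaleL z
        (HahnSeries.single (-(μ : ℤ)) (1 : Kbar) * HahnSeries.ofPowerSeries ℤ Kbar P)) =
      HahnSeries.single (-((k * μ : ℕ) : ℤ)) (1 : Kbar) *
        HahnSeries.ofPowerSeries ℤ Kbar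
          (PowerSeries.C (((z⁻¹ : Kbarˣ) : Kbar) ^ μ) * substPS (z : Kbar) k P) := by
  have e : (k : ℤ) * -(μ : ℤ) = -((k * μ : ℕ) : ℤ) := by push_cast; ring
  have h1 : qExpand Kbar k (scaleL z (HahnSeries.single (-(μ : ℤ)) (1 : Kbar))) =
      HahnSeries.single (-((k * μ : ℕ) : ℤ)) (1 : Kbar) *
        HahnSeries.ofPowerSeries ℤ Kbar (PowerSeries.C (((z⁻¹ : Kbarˣ) : Kbar) ^ μ)) := by
    rw [scaleL_single, qExpand_single, e, HahnSeries.ofPowerSeries_C, HahnSeries.C_apply,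
      HahnSeries.single_mul_single, add_zero, one_mul, mul_one, zpow_neg, zpow_natCast,
      ← inv_pow, Units.val_pow_eq_pow_val]
  rw [map_mul (scaleL z), map_mul (qExpand Kbar k), h1, epsTw_ofPowerSeries,
    map_mul (HahnSeries.ofPowerSeries ℤ Kbar), mul_assoc]

/-- **Substitution** `u_{M₀} ∘ φ = z · u_M^k` in a Laurent expansion: the expansion of `g ∘ φ`
is `A(z u^k)`. -/
theorem epsTw_hasExp_comp {M₀ M : ℕ} {g : Fun} {A : LaurentSeries Kbar}
    (hg : HasExp M₀ g A) (φ : ℍ → ℍ) (z : Kbarˣ) (hz : ‖iota (z : Kbar)‖ = 1) (k : ℕ)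
    [NeZero k] (hφ : ∀ τ, uParam M₀ (φ τ) = iota (z : Kbar) * uParam M τ ^ k) :
    HasExp M (fun τ => g (φ τ)) (qExpand Kbar k (scaleL z A)) := by
  obtain ⟨μ, P, rfl, hP⟩ := hg
  have hk : 0 < k := Nat.pos_of_ne_zero (NeZero.ne k)
  have h1 := hasPExp_substPS hP φ (z : Kbar) hz k hk hφ
  have hz0 : iota (z : Kbar) ≠ 0 := by
    intro h
    rw [h, norm_zero] at hz
    exact zero_ne_one hz
  have h2 := (HasPExp.const M (((z⁻¹ : Kbarˣ) : Kbar) ^ μ)).mul h1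
  refine ⟨k * μ, _, epsTw_series z k μ P, HasExp.pexp_congr h2 fun τ => ?_⟩
  show g (φ τ) * uParam M τ ^ (k * μ)
    = iota (((z⁻¹ : Kbarˣ) : Kbar) ^ μ) * (g (φ τ) * uParam M₀ (φ τ) ^ μ)
  rw [hφ τ, mul_pow, map_pow, Units.val_inv_eq_inv_val, map_inv₀, pow_mul]
  have hinv : (iota (z : Kbar))⁻¹ ^ μ * iota (z : Kbar) ^ μ = 1 := by
    rw [← mul_pow, inv_mul_cancel₀ hz0, one_pow]
  linear_combination (-(g (φ τ) * (uParam M τ ^ k) ^ μ)) * hinv

end Fermat.Agent.S36Ig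
end
end MergeWrap_S36_Ig_EpsTwist

section MergeWrap_S36_Ig_EpsGen -- from S36/Ig/EpsGen.lean

set_option autoImplicit false
set_option linter.style.haveILetI false

noncomputable section

namespace Fermat.Agent.S36Ig

open ModularCurve UpperHalfPlane Fermat.Agent.S24 Fermat.Agent.S24.GensExp
  Fermat.Agent.Kronecker Fermat.Agent.S48WKron
open scoped MatrixGroups

/-- `g = [[1, 0], [c, 1]]`. -/
def epsLow (c : ℤ) : SL(2, ℤ) :=
  ⟨!![1, 0; c, 1], by rw [Matrix.det_fin_two_of]; ring⟩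

@[simp] theorem epsLow_00 (c : ℤ) : epsLow c 0 0 = 1 := rfl
@[simp] theorem epsLow_01 (c : ℤ) : epsLow c 0 1 = 0 := rfl
@[simp] theorem epsLow_10 (c : ℤ) : epsLow c 1 0 = c := rfl
@[simp] theorem epsLow_11 (c : ℤ) : epsLow c 1 1 = 1 := rfl

/-- `γ'' = [[q, -d' b], [c₀ t, w]]`, `q w + d' c₀ t b = 1`. -/
def epsAux (q d' c₀ : ℕ) (t b w : ℤ) (h : (q : ℤ) * w + (d' : ℤ) * c₀ * t * b = 1) : SL(2, ℤ) :=
  ⟨!![(q : ℤ), -((d' : ℤ) * b); (c₀ : ℤ) * t, w], by
    rw [Matrix.det_fin_two_of]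
    linear_combination h⟩

/-- `q² d' · g(τ) = γ''(d' (τ + b/q))`. -/
theorem eps_scale_low_smul (q d' c₀ : ℕ) [NeZero q] [NeZero d'] [NeZero (q * q * d')]
    [NeZero (q * d')] (t b w : ℤ) (h : (q : ℤ) * w + (d' : ℤ) * c₀ * t * b = 1) (τ : ℍ) :
    scale (q * q * d') (epsLow ((q : ℤ) * ((d' : ℤ) * c₀) * t) • τ) =
      epsAux q d' c₀ t b w h •
        aff (q * d') q ((d' : ℤ) * b) (Nat.pos_of_ne_zero (NeZero.ne (q * d')))
          (Nat.pos_of_ne_zero (NeZero.ne q)) τ := by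
  apply UpperHalfPlane.ext
  have h1 := sl2_denom_ne_zero (epsLow ((q : ℤ) * ((d' : ℤ) * c₀) * t)) τ
  have h2 := sl2_denom_ne_zero (epsAux q d' c₀ t b w h)
    (aff (q * d') q ((d' : ℤ) * b) (Nat.pos_of_ne_zero (NeZero.ne (q * d')))
      (Nat.pos_of_ne_zero (NeZero.ne q)) τ)
  have hq : (q : ℂ) ≠ 0 := by exact_mod_cast NeZero.ne q
  have hC : ((q : ℂ) * (w : ℂ) + (d' : ℂ) * (c₀ : ℂ) * (t : ℂ) * (b : ℂ)) = 1 := by
    exact_mod_cast congrArg (Int.cast : ℤ → ℂ) h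
  rw [coe_scale, coe_sl2_smul, coe_sl2_smul, coe_aff]
  rw [coe_aff] at h2
  have e00 : (epsAux q d' c₀ t b w h) 0 0 = (q : ℤ) := rfl
  have e01 : (epsAux q d' c₀ t b w h) 0 1 = -((d' : ℤ) * b) := rfl
  have e10 : (epsAux q d' c₀ t b w h) 1 0 = (c₀ : ℤ) * t := rfl
  have e11 : (epsAux q d' c₀ t b w h) 1 1 = w := rfl
  rw [e10, e11] at h2
  rw [e00, e01, e10, e11]
  simp only [epsLow_00, epsLow_01, epsLow_10, epsLow_11] at h1 ⊢
  push_cast at h1 h2 ⊢
  have hden : (c₀ : ℂ) * (t : ℂ) * (((q : ℂ) * (d' : ℂ) * (τ : ℂ) + (d' : ℂ) * (b : ℂ)) / (q : ℂ))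
      + (w : ℂ) = ((q : ℂ) * ((d' : ℂ) * (c₀ : ℂ)) * (t : ℂ) * (τ : ℂ) + 1) / (q : ℂ) := by
    field_simp
    linear_combination hC
  rw [hden] at h2 ⊢
  have h3 : (q : ℂ) * ((d' : ℂ) * (c₀ : ℂ)) * (t : ℂ) * (τ : ℂ) + 1 ≠ 0 := h1
  field_simp
  ring

/-- `HasExp 1 j (q⁻¹ + 744 + ⋯)`. -/
theorem eps_hasExp_jFun : HasExp 1 jFun (jqModC Kbar) := by
  have h := hasExp_jd 1 1 (dvd_refl 1)
  rw [EmbFHom.jd_one, qExpand_congr (show 1 * 1 = 1 from rfl), qExpand_one_apply] at h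
  exact h

theorem eps_norm_iota_of_pow {z : Kbarˣ} {n : ℕ} (hn : n ≠ 0) (hz : z ^ n = 1) :
    ‖iota (z : Kbar)‖ = 1 := by
  have h1 : (iota (z : Kbar)) ^ n = 1 := by
    rw [← map_pow, ← Units.val_pow_eq_pow_val, hz, Units.val_one, map_one]
  exact Complex.norm_eq_one_of_pow_eq_one h1 hn

/-- the expansion of `τ ↦ j(d' (τ + b/q))` in `u = e(τ/(M₀ q²))`: `j_{d'}(z Q)`, `Q = u^{M₀ q²}`,
`z = e(b/q)`. -/
theorem eps_hasExp_jFun_aff (M₀ q d' : ℕ) [NeZero M₀] [NeZero q] [NeZero d'] [NeZero (q * d')]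
    [NeZero (M₀ * q * q)] (b : ℤ) (z : Kbarˣ) (hzq : z ^ q = 1)
    (hz : iota (z : Kbar) = Complex.exp (2 * Real.pi * Complex.I * (b : ℂ) / (q : ℂ))) :
    HasExp (M₀ * q * q)
      (fun τ => jFun (aff (q * d') q ((d' : ℤ) * b) (Nat.pos_of_ne_zero (NeZero.ne (q * d')))
        (Nat.pos_of_ne_zero (NeZero.ne q)) τ))
      (qExpand Kbar (M₀ * q * q) (scaleL z (qExpand Kbar d' (jqModC Kbar)))) := by
  haveI : NeZero (q * d' * (M₀ * q)) :=
    ⟨mul_ne_zero (NeZero.ne (q * d')) (mul_ne_zero (NeZero.ne M₀) (NeZero.ne q))⟩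
  haveI : NeZero (M₀ * q * q * d') := ⟨mul_ne_zero (NeZero.ne (M₀ * q * q)) (NeZero.ne d')⟩
  have hzd : (z ^ d') ^ q = 1 := by rw [← pow_mul, mul_comm, pow_mul, hzq, one_pow]
  have hφ : ∀ τ : ℍ, uParam 1 (aff (q * d') q ((d' : ℤ) * b)
      (Nat.pos_of_ne_zero (NeZero.ne (q * d'))) (Nat.pos_of_ne_zero (NeZero.ne q)) τ)
      = iota ((z ^ d' : Kbarˣ) : Kbar) * uParam (M₀ * q * q) τ ^ (q * d' * (M₀ * q)) := by
    intro τ
    rw [uParam_one_aff (M₀ * q * q) (q * d') q (M₀ * q) ((d' : ℤ) * b) _ _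
      (by ring) (Nat.mul_pos (Nat.pos_of_ne_zero (NeZero.ne M₀))
        (Nat.pos_of_ne_zero (NeZero.ne q)))]
    congr 1
    rw [Units.val_pow_eq_pow_val, map_pow, hz, ← Complex.exp_nat_mul]
    congr 1
    push_cast
    ring
  have h1 := epsTw_hasExp_comp eps_hasExp_jFun _ (z ^ d')
    (eps_norm_iota_of_pow (NeZero.ne q) hzd) (q * d' * (M₀ * q)) hφ
  have e : qExpand Kbar (q * d' * (M₀ * q)) (scaleL (z ^ d') (jqModC Kbar)) =
      qExpand Kbar (M₀ * q * q) (scaleL z (qExpand Kbar d' (jqModC Kbar))) := by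
    rw [scaleL_qExpand, qExpand_qExpand,
      qExpand_congr (show M₀ * q * q * d' = q * d' * (M₀ * q) by ring)]
  rw [← e]
  exact h1

/-- **the middle cusp**: `g⁻¹ • j_{q² d'}` has the expansion `j_{d'}(z Q)`,
`g = [[1, 0], [M₀ q t, 1]]`, `q w + M₀ t b = 1`, `z = e(b/q)`, `d' ∣ M₀`. -/
theorem eps_hasExp_low_smul_jd (M₀ q d' : ℕ) [NeZero M₀] [NeZero q] [NeZero d']
    [NeZero (q * q * d')] [NeZero (M₀ * q * q)] (hd : d' ∣ M₀) (t b w : ℤ)
    (h : (q : ℤ) * w + (M₀ : ℤ) * t * b = 1) (z : Kbarˣ) (hzq : z ^ q = 1)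
    (hz : iota (z : Kbar) = Complex.exp (2 * Real.pi * Complex.I * (b : ℂ) / (q : ℂ))) :
    HasExp (M₀ * q * q) ((epsLow ((M₀ : ℤ) * q * t))⁻¹ • jd (q * q * d'))
      (qExpand Kbar (M₀ * q * q) (scaleL z (qExpand Kbar d' (jqModC Kbar)))) := by
  haveI : NeZero (q * d') := ⟨mul_ne_zero (NeZero.ne q) (NeZero.ne d')⟩
  obtain ⟨c₀, hc₀⟩ := hd
  have h' : (q : ℤ) * w + (d' : ℤ) * c₀ * t * b = 1 := by
    rw [hc₀] at h
    push_cast at h
    linear_combination h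
  have hc : ((M₀ : ℤ) * q * t) = (q : ℤ) * ((d' : ℤ) * c₀) * t := by
    rw [hc₀]
    push_cast
    ring
  refine hasExp_congr_fun (eps_hasExp_jFun_aff M₀ q d' b z hzq hz) fun τ => ?_
  show jFun (scale (q * q * d') ((epsLow ((M₀ : ℤ) * q * t))⁻¹⁻¹ • τ)) = _
  rw [inv_inv, hc, eps_scale_low_smul q d' c₀ t b w h', jFun_smul_pt]

/-- `g⁻¹` fixes `j_d` for `d ∣ M₀ q`. -/
theorem eps_low_smul_jd (M₀ q d : ℕ) [NeZero d] (hd : d ∣ M₀ * q) (t : ℤ) :
    (epsLow ((M₀ : ℤ) * q * t))⁻¹ • jd d = jd d := by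
  rw [smul_jd_eq_iff]
  apply inv_mem
  apply EmbFStab.mem_Gamma0_of_dvd
  rw [epsLow_10]
  have h1 : (d : ℤ) ∣ ((M₀ * q : ℕ) : ℤ) := Int.natCast_dvd_natCast.mpr hd
  push_cast at h1
  exact Dvd.dvd.mul_right h1 t

end Fermat.Agent.S36Ig
end
end MergeWrap_S36_Ig_EpsGen
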